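import Mathlib
import Fermat.Prelude.Thm_CongruenceSubgroup_one_mem_strictPeriods_Gamma0
import Fermat.Prelude.Thm_ModularForm_sturm_bound_Gamma0

set_option autoImplicit false

/-!
# Modular forms of non-positive weight vanishing at `i∞`, and periodic polynomials
-/

namespace Fermat.Agent.TeamB

open Complex Filter Topology Function CongruenceSubgroup
open UpperHalfPlane hiding I
open scoped Manifold

noncomputable section

/-- A modular form of weight `≤ 0` on `Γ₀(N)` which vanishes at `i∞` is zero
(prelude Sturm bound: the bound is `0`, and the constant coefficient vanishes). -/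
theorem eq_zero_of_nonpos_weight (N : ℕ) [NeZero N] {k : ℤ} (hk : k ≤ 0)
    (G : ModularForm (Gamma0 N) k) (h0 : UpperHalfPlane.IsZeroAtImInfty G) : G = 0 := by
  apply ModularForm.sturm_bound_Gamma0 N G
  intro n hn
  have hb : (k * ((Gamma0 N).index : ℤ)).toNat = 0 := by
    apply Int.toNat_of_nonpos
    exact mul_nonpos_of_nonpos_of_nonneg hk (by positivity)
  rw [hb, Nat.zero_div, Nat.le_zero] at hn
  subst hn
  have hΓ := CongruenceSubgroup.one_mem_strictPeriods_Gamma0 N
  rw [UpperHalfPlane.qExpansion_coeff_zero one_pos
    (ModularFormClass.analyticAt_cuspFunction_zero G one_pos hΓ)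
    (SlashInvariantFormClass.periodic_comp_ofComplex G hΓ)]
  exact h0.valueAtInfty_eq_zero

/-- A polynomial which is `N`-periodic on the upper half plane (`N > 0`) is constant. -/
theorem natDegree_eq_zero_of_periodic {p : Polynomial ℂ} {N : ℕ} (hN : 0 < N)
    (hp : ∀ z : ℍ, p.eval ((z : ℂ) + N) = p.eval (z : ℂ)) : p.natDegree = 0 := by
  -- `p(X + N) - p(X)` vanishes on the infinite set `ℍ`, hence is zero
  set q : Polynomial ℂ := p.comp (Polynomial.X + Polynomial.C (N : ℂ)) - p with hq
  have hq0 : q = 0 := by
    apply Polynomial.eq_zero_of_infinite_isRoot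
    have hinf : (Set.range (fun t : ℕ => ((t : ℂ) + Complex.I))).Infinite := by
      apply Set.infinite_range_of_injective
      intro a b hab
      have := congrArg Complex.re hab
      simpa using this
    refine hinf.mono ?_
    rintro _ ⟨t, rfl⟩
    have him : 0 < ((t : ℂ) + Complex.I).im := by simp
    have := hp ⟨(t : ℂ) + Complex.I, him⟩
    simp only [Set.mem_ofPred_eq, Polynomial.IsRoot, hq, Polynomial.eval_sub, Polynomial.eval_comp,
      Polynomial.eval_add, Polynomial.eval_X, Polynomial.eval_C]
    rw [sub_eq_zero]
    exact this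
  -- iterate: `p(z + nN) = p(z)`, so `p - p(0)` has infinitely many roots
  have hshift : p.comp (Polynomial.X + Polynomial.C (N : ℂ)) = p := sub_eq_zero.mp (hq ▸ hq0)
  have hiter : ∀ n : ℕ, p.eval ((n : ℂ) * N) = p.eval 0 := by
    intro n
    induction n with
    | zero => simp
    | succ n ih =>
      have := congrArg (Polynomial.eval ((n : ℂ) * N)) hshift
      simp only [Polynomial.eval_comp, Polynomial.eval_add, Polynomial.eval_X,
        Polynomial.eval_C] at this
      rw [← ih, ← this]
      congr 1
      push_cast
      ring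
  have hconst : p - Polynomial.C (p.eval 0) = 0 := by
    apply Polynomial.eq_zero_of_infinite_isRoot
    have hinf : (Set.range (fun n : ℕ => ((n : ℂ) * N))).Infinite := by
      apply Set.infinite_range_of_injective
      intro a b hab
      have hN' : (N : ℂ) ≠ 0 := by exact_mod_cast hN.ne'
      have := mul_right_cancel₀ hN' hab
      exact_mod_cast this
    refine hinf.mono ?_
    rintro _ ⟨n, rfl⟩
    simp only [Set.mem_ofPred_eq, Polynomial.IsRoot, Polynomial.eval_sub, Polynomial.eval_C]
    rw [sub_eq_zero]
    exact hiter n
  rw [sub_eq_zero.mp hconst]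
  exact Polynomial.natDegree_C _

end

end Fermat.Agent.TeamB
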