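import Mathlib

set_option autoImplicit false

open Polynomial UpperHalfPlane
open scoped MatrixGroups

namespace Fermat.Agent.TeamB

/-- Two complex polynomials agreeing on the upper half plane are equal. -/
theorem poly_eq_of_eval_eq_on_upperHalfPlane {p q : ℂ[X]}
    (h : ∀ x : ℍ, p.eval (x : ℂ) = q.eval (x : ℂ)) : p = q := by
  refine Polynomial.eq_of_infinite_eval_eq p q ?_
  have hinf : (Set.range (fun n : ℕ => ((n : ℂ) + Complex.I))).Infinite := by
    apply Set.infinite_range_of_injective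
    intro a b hab
    have := congrArg Complex.re hab
    simpa using this
  refine hinf.mono ?_
  rintro _ ⟨n, rfl⟩
  have him : 0 < ((n : ℂ) + Complex.I).im := by simp
  exact h ⟨_, him⟩

/-- The weight `-m` action of a real `2 × 2` matrix on polynomials of degree `≤ m`:
`p ↦ (cX+d)^m p((aX+b)/(cX+d)) = ∑ p_j (aX+b)^j (cX+d)^(m-j)`. -/
noncomputable def polyAct (m : ℕ) (α : GL (Fin 2) ℝ) (p : ℂ[X]) : ℂ[X] :=
  ∑ j ∈ Finset.range (m + 1),
    C (p.coeff j) * (C ((α 0 0 : ℝ) : ℂ) * X + C ((α 0 1 : ℝ) : ℂ)) ^ j *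
      (C ((α 1 0 : ℝ) : ℂ) * X + C ((α 1 1 : ℝ) : ℂ)) ^ (m - j)

theorem polyAct_add (m : ℕ) (α : GL (Fin 2) ℝ) (p q : ℂ[X]) :
    polyAct m α (p + q) = polyAct m α p + polyAct m α q := by
  simp only [polyAct, coeff_add, C_add, add_mul, Finset.sum_add_distrib]

theorem polyAct_zero (m : ℕ) (α : GL (Fin 2) ℝ) : polyAct m α 0 = 0 := by
  simp [polyAct]

theorem polyAct_smul (m : ℕ) (α : GL (Fin 2) ℝ) (c : ℂ) (p : ℂ[X]) :
    polyAct m α (c • p) = c • polyAct m α p := by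
  simp only [polyAct, coeff_smul, smul_eq_mul, C_mul, Finset.smul_sum, mul_assoc]
  refine Finset.sum_congr rfl fun j _ => ?_
  rw [smul_eq_C_mul]

theorem polyAct_neg (m : ℕ) (α : GL (Fin 2) ℝ) (p : ℂ[X]) :
    polyAct m α (-p) = -polyAct m α p := by
  have := polyAct_smul m α (-1) p
  simpa using this

theorem polyAct_sub (m : ℕ) (α : GL (Fin 2) ℝ) (p q : ℂ[X]) :
    polyAct m α (p - q) = polyAct m α p - polyAct m α q := by
  rw [sub_eq_add_neg, polyAct_add, polyAct_neg, ← sub_eq_add_neg]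

theorem polyAct_sum {ι : Type*} (m : ℕ) (α : GL (Fin 2) ℝ) (s : Finset ι) (p : ι → ℂ[X]) :
    polyAct m α (∑ i ∈ s, p i) = ∑ i ∈ s, polyAct m α (p i) := by
  classical
  induction s using Finset.induction_on with
  | empty => simp [polyAct_zero]
  | insert i t hi IH => rw [Finset.sum_insert hi, Finset.sum_insert hi, polyAct_add, IH]

theorem natDegree_polyAct_le (m : ℕ) (α : GL (Fin 2) ℝ) (p : ℂ[X]) :
    (polyAct m α p).natDegree ≤ m := by
  refine Polynomial.natDegree_sum_le_of_forall_le _ _ fun j hj => ?_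
  have hj' : j ≤ m := Nat.lt_succ_iff.mp (Finset.mem_range.mp hj)
  have h1 : (C ((α 0 0 : ℝ) : ℂ) * X + C ((α 0 1 : ℝ) : ℂ)).natDegree ≤ 1 :=
    natDegree_linear_le
  have h2 : (C ((α 1 0 : ℝ) : ℂ) * X + C ((α 1 1 : ℝ) : ℂ)).natDegree ≤ 1 :=
    natDegree_linear_le
  calc _ ≤ (C (p.coeff j) * (C ((α 0 0 : ℝ) : ℂ) * X + C ((α 0 1 : ℝ) : ℂ)) ^ j).natDegree +
        ((C ((α 1 0 : ℝ) : ℂ) * X + C ((α 1 1 : ℝ) : ℂ)) ^ (m - j)).natDegree := natDegree_mul_le
    _ ≤ ((C (p.coeff j)).natDegree + ((C ((α 0 0 : ℝ) : ℂ) * X + C ((α 0 1 : ℝ) : ℂ)) ^ j).natDegree) +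
        ((C ((α 1 0 : ℝ) : ℂ) * X + C ((α 1 1 : ℝ) : ℂ)) ^ (m - j)).natDegree :=
          Nat.add_le_add_right natDegree_mul_le _
    _ ≤ (0 + j * 1) + (m - j) * 1 := by
          gcongr
          · simp
          · exact natDegree_pow_le_of_le j h1
          · exact natDegree_pow_le_of_le (m - j) h2
    _ = m := by omega

/-- Evaluation of `polyAct`: it is `(cx+d)^m p((ax+b)/(cx+d))`. -/
theorem eval_polyAct {m : ℕ} (α : GL (Fin 2) ℝ) {p : ℂ[X]} (hp : p.natDegree ≤ m) {x : ℂ}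
    (hx : denom α x ≠ 0) :
    (polyAct m α p).eval x = denom α x ^ m * p.eval (num α x / denom α x) := by
  rw [polyAct, eval_finsetSum, eval_eq_sum_range' (Nat.lt_succ_of_le hp), Finset.mul_sum]
  refine Finset.sum_congr rfl fun j hj => ?_
  have hj' : j ≤ m := Nat.lt_succ_iff.mp (Finset.mem_range.mp hj)
  simp only [eval_mul, eval_C, eval_pow, eval_add, eval_X]
  have h1 : denom α x ^ m = denom α x ^ j * denom α x ^ (m - j) := by
    rw [← pow_add]; congr 1; omega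
  have h2 : (↑(α 0 0 : ℝ) : ℂ) * x + ↑(α 0 1 : ℝ) = num α x := rfl
  have h3 : (↑(α 1 0 : ℝ) : ℂ) * x + ↑(α 1 1 : ℝ) = denom α x := rfl
  rw [h2, h3, h1, div_pow]
  field_simp

/-- Evaluation of `polyAct` at points of the upper half plane, positive determinant. -/
theorem eval_polyAct_coe {m : ℕ} {α : GL (Fin 2) ℝ} (hα : 0 < α.det.val) {p : ℂ[X]}
    (hp : p.natDegree ≤ m) (x : ℍ) :
    (polyAct m α p).eval (x : ℂ) = denom α x ^ m * p.eval ((α • x : ℍ) : ℂ) := by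
  rw [eval_polyAct α hp (denom_ne_zero α x), coe_smul_of_det_pos hα]

theorem polyAct_mul {m : ℕ} {α β : GL (Fin 2) ℝ} (hα : 0 < α.det.val) (hβ : 0 < β.det.val)
    {p : ℂ[X]} (hp : p.natDegree ≤ m) :
    polyAct m (α * β) p = polyAct m β (polyAct m α p) := by
  apply poly_eq_of_eval_eq_on_upperHalfPlane
  intro x
  have hαβ : 0 < (α * β).det.val := by
    rw [map_mul, Units.val_mul]; exact mul_pos hα hβ
  rw [eval_polyAct_coe hαβ hp, eval_polyAct_coe hβ (natDegree_polyAct_le m α p),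
    eval_polyAct_coe hα hp, mul_smul, denom_cocycle α β x.im_ne_zero, mul_pow,
    coe_smul_of_det_pos hβ]
  ring_nf

theorem polyAct_one {m : ℕ} {p : ℂ[X]} (hp : p.natDegree ≤ m) : polyAct m 1 p = p := by
  apply poly_eq_of_eval_eq_on_upperHalfPlane
  intro x
  rw [eval_polyAct_coe (by simp) hp]
  simp [denom]

/-- Integrality: the coefficients of `polyAct m α p` are integer combinations of those of `p`
when `α` has integer entries. -/
theorem polyAct_coeff_int {m : ℕ} {α : GL (Fin 2) ℝ} (hα : ∀ i j, ∃ n : ℤ, α i j = (n : ℝ)) :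
    ∃ M : ℕ → ℕ → ℤ, ∀ (p : ℂ[X]) (i : ℕ),
      (polyAct m α p).coeff i = ∑ j ∈ Finset.range (m + 1), (M i j : ℂ) * p.coeff j := by
  obtain ⟨a, ha⟩ := hα 0 0
  obtain ⟨b, hb⟩ := hα 0 1
  obtain ⟨c, hc⟩ := hα 1 0
  obtain ⟨d, hd⟩ := hα 1 1
  let B : ℕ → ℤ[X] := fun j => (C a * X + C b) ^ j * (C c * X + C d) ^ (m - j)
  refine ⟨fun i j => (B j).coeff i, fun p i => ?_⟩
  rw [polyAct, finsetSum_coeff]
  refine Finset.sum_congr rfl fun j _ => ?_
  have hB : (C ((α 0 0 : ℝ) : ℂ) * X + C ((α 0 1 : ℝ) : ℂ)) ^ j *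
      (C ((α 1 0 : ℝ) : ℂ) * X + C ((α 1 1 : ℝ) : ℂ)) ^ (m - j) =
      (B j).map (Int.castRingHom ℂ) := by
    simp only [B, ha, hb, hc, hd, Polynomial.map_mul, Polynomial.map_pow, Polynomial.map_add,
      Polynomial.map_C, Polynomial.map_X]
    simp
  rw [mul_assoc, hB, coeff_C_mul, coeff_map, mul_comm]
  simp

end Fermat.Agent.TeamB
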