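import Mathlib
import Fermat.Agent.TeamB.PolyAct

set_option autoImplicit false

open Polynomial UpperHalfPlane Filter Topology
open scoped MatrixGroups ModularForm Manifold

namespace Fermat.Agent.TeamB

/-! ### Derivatives on the upper half plane -/

/-- `F' = G` on the upper half plane. -/
def HasDerivH (F G : ℍ → ℂ) : Prop :=
  ∀ τ : ℍ, HasDerivAt (F ∘ ofComplex) (G τ) (τ : ℂ)

theorem hasDerivAt_coe_ofComplex (τ : ℍ) :
    HasDerivAt (fun z : ℂ => ((ofComplex z : ℍ) : ℂ)) 1 (τ : ℂ) :=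
  (hasDerivAt_id (τ : ℂ)).congr_of_eventuallyEq (eventuallyEq_coe_comp_ofComplex τ.im_pos)

theorem HasDerivH.mdifferentiable {F G : ℍ → ℂ} (h : HasDerivH F G) : MDiff F := by
  intro τ
  exact mdifferentiableAt_iff.mpr (h τ).differentiableAt

/-- A function on `ℍ` with zero derivative is constant. -/
theorem eq_of_hasDerivAt_zero {φ : ℂ → ℂ}
    (h : ∀ τ : ℍ, HasDerivAt φ 0 (τ : ℂ)) (z w : ℍ) : φ z = φ w := by
  have hopen : IsOpen {z : ℂ | 0 < z.im} := isOpen_upperHalfPlaneSet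
  have hconv : Convex ℝ {z : ℂ | 0 < z.im} := convex_halfSpace_im_gt 0
  have hd : DifferentiableOn ℂ φ {z : ℂ | 0 < z.im} := fun z hz =>
    (h ⟨z, hz⟩).differentiableAt.differentiableWithinAt
  have hd' : Set.EqOn (deriv φ) 0 {z : ℂ | 0 < z.im} := fun z hz => (h ⟨z, hz⟩).deriv
  exact hopen.is_const_of_deriv_eq_zero hconv.isPreconnected hd hd' z.im_pos w.im_pos

/-! ### Moebius transformations -/

theorem det_eq_complex (α : GL (Fin 2) ℝ) :
    ((α.det.val : ℝ) : ℂ) = (α 0 0 : ℝ) * (α 1 1 : ℝ) - (α 0 1 : ℝ) * (α 1 0 : ℝ) := by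
  rw [Matrix.GeneralLinearGroup.val_det_apply, Matrix.det_fin_two]
  push_cast
  ring

theorem coe_smul_sub_coe_smul {α : GL (Fin 2) ℝ} (hα : 0 < α.det.val) (x τ : ℍ) :
    ((α • x : ℍ) : ℂ) - ((α • τ : ℍ) : ℂ) =
      (α.det.val : ℝ) * ((x : ℂ) - τ) / (denom α x * denom α τ) := by
  rw [coe_smul_of_det_pos hα, coe_smul_of_det_pos hα, det_eq_complex]
  have h1 := denom_ne_zero α x
  have h2 := denom_ne_zero α τ
  rw [div_sub_div _ _ h1 h2]
  congr 1
  simp only [num, denom]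
  ring

theorem hasDerivAt_smul_ofComplex {α : GL (Fin 2) ℝ} (hα : 0 < α.det.val) (τ : ℍ) :
    HasDerivAt (fun z : ℂ => ((α • ofComplex z : ℍ) : ℂ))
      ((α.det.val : ℝ) / (denom α τ) ^ 2) (τ : ℂ) := by
  have hev : (fun z : ℂ => ((α • ofComplex z : ℍ) : ℂ)) =ᶠ[𝓝 (τ : ℂ)]
      fun z => num α z / denom α z := by
    filter_upwards [isOpen_upperHalfPlaneSet.mem_nhds τ.im_pos] with z hz
    rw [coe_smul_of_det_pos hα, ofComplex_apply_of_im_pos hz]
  refine HasDerivAt.congr_of_eventuallyEq ?_ hev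
  have hn : HasDerivAt (fun z : ℂ => num α z) ((α 0 0 : ℝ) : ℂ) (τ : ℂ) := by
    simp only [num]
    simpa using ((hasDerivAt_id (τ : ℂ)).const_mul ((α 0 0 : ℝ) : ℂ)).add_const ((α 0 1 : ℝ) : ℂ)
  have hd : HasDerivAt (fun z : ℂ => denom α z) ((α 1 0 : ℝ) : ℂ) (τ : ℂ) := by
    simp only [denom]
    simpa using ((hasDerivAt_id (τ : ℂ)).const_mul ((α 1 0 : ℝ) : ℂ)).add_const ((α 1 1 : ℝ) : ℂ)
  refine (hn.fun_div hd (denom_ne_zero α τ)).congr_deriv ?_
  rw [det_eq_complex]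
  simp only [num, denom]
  ring

/-! ### The Eichler polynomial attached to a chain of primitives -/

/-- `eichlerPoly m F z = ∑_{i ≤ m} m!/(m-i)! (X - z)^(m-i) F_{i+1}(z)`, defined recursively. -/
noncomputable def eichlerPoly : ℕ → (ℕ → ℍ → ℂ) → ℍ → ℂ[X]
  | 0, F, z => C (F 1 z)
  | (m + 1), F, z =>
      (X - C (z : ℂ)) ^ (m + 1) * C (F 1 z) + C ((m + 1 : ℕ) : ℂ) * eichlerPoly m (fun i => F (i + 1)) z

theorem natDegree_eichlerPoly_le (m : ℕ) (F : ℕ → ℍ → ℂ) (z : ℍ) :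
    (eichlerPoly m F z).natDegree ≤ m := by
  induction m generalizing F with
  | zero => simp [eichlerPoly]
  | succ m ih =>
    rw [eichlerPoly]
    refine (natDegree_add_le _ _).trans (max_le ?_ ?_)
    · refine natDegree_mul_le.trans ?_
      have h1 : ((X - C (z : ℂ)) ^ (m + 1)).natDegree ≤ m + 1 := by
        refine (natDegree_pow_le).trans ?_
        rw [natDegree_X_sub_C]; omega
      simp
    · refine natDegree_mul_le.trans ?_
      have := ih (fun i => F (i + 1))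
      simp only [natDegree_C, zero_add]
      omega

theorem eval_eichlerPoly_self (m : ℕ) (F : ℕ → ℍ → ℂ) (z : ℍ) :
    (eichlerPoly m F z).eval (z : ℂ) = (m.factorial : ℂ) * F (m + 1) z := by
  induction m generalizing F with
  | zero => simp [eichlerPoly]
  | succ m ih =>
    rw [eichlerPoly]
    simp only [eval_add, eval_mul, eval_pow, eval_sub, eval_X, eval_C, sub_self]
    rw [ih (fun i => F (i + 1)), Nat.factorial_succ]
    push_cast
    ring

theorem hasDerivAt_eval_eichlerPoly (m : ℕ) (F : ℕ → ℍ → ℂ)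
    (hF : ∀ i, HasDerivH (F (i + 1)) (F i)) (x : ℂ) (τ : ℍ) :
    HasDerivAt (fun z : ℂ => (eichlerPoly m F (ofComplex z)).eval x)
      (F 0 τ * (x - τ) ^ m) (τ : ℂ) := by
  induction m generalizing F with
  | zero =>
    simp only [eichlerPoly, eval_C, pow_zero, mul_one]
    exact hF 0 τ
  | succ m ih =>
    have h1 : HasDerivAt (fun z : ℂ => x - ((ofComplex z : ℍ) : ℂ)) (-1) (τ : ℂ) := by
      simpa using (hasDerivAt_coe_ofComplex τ).const_sub x
    have h2 : HasDerivAt (fun z : ℂ => (x - ((ofComplex z : ℍ) : ℂ)) ^ (m + 1))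
        (((m + 1 : ℕ) : ℂ) * (x - τ) ^ m * (-1)) (τ : ℂ) := by
      have := h1.fun_pow (m + 1)
      simpa [ofComplex_apply] using this
    have h3 : HasDerivAt (fun z : ℂ => F 1 (ofComplex z)) (F 0 τ) (τ : ℂ) := hF 0 τ
    have h4 := ih (fun i => F (i + 1)) (fun i => hF (i + 1))
    have h5 := (h2.mul h3).add (h4.const_mul ((m + 1 : ℕ) : ℂ))
    simp only [eichlerPoly, eval_add, eval_mul, eval_pow, eval_sub, eval_X, eval_C]
    refine h5.congr_deriv ?_
    simp only [ofComplex_apply]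
    push_cast
    ring

/-! ### Eichler primitives -/

/-- `Q` is an Eichler primitive of `g` of order `m`: values are polynomials of degree `≤ m` and
`∂_z Q(z)(x) = g(z) (x - z)^m` for all `x` in the upper half plane. -/
def IsEichlerPrim (m : ℕ) (g : ℍ → ℂ) (Q : ℍ → ℂ[X]) : Prop :=
  (∀ z, (Q z).natDegree ≤ m) ∧
    ∀ x τ : ℍ, HasDerivAt (fun z : ℂ => (Q (ofComplex z)).eval (x : ℂ))
      (g τ * ((x : ℂ) - τ) ^ m) (τ : ℂ)

/-- Decay along every vertical line. -/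
def VertDecay (Q : ℍ → ℂ[X]) : Prop :=
  ∀ (r : ℝ) (x : ℍ),
    Tendsto (fun t : ℝ => (Q (ofComplex ((r : ℂ) + t * Complex.I))).eval (x : ℂ)) atTop (𝓝 0)

theorem isEichlerPrim_eichlerPoly (m : ℕ) (F : ℕ → ℍ → ℂ)
    (hF : ∀ i, HasDerivH (F (i + 1)) (F i)) : IsEichlerPrim m (F 0) (eichlerPoly m F) :=
  ⟨natDegree_eichlerPoly_le m F, fun x τ => hasDerivAt_eval_eichlerPoly m F hF x τ⟩

/-- Two Eichler primitives of the same function differ by a constant polynomial. -/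
theorem IsEichlerPrim.sub_const {m : ℕ} {g : ℍ → ℂ} {Q₁ Q₂ : ℍ → ℂ[X]}
    (h₁ : IsEichlerPrim m g Q₁) (h₂ : IsEichlerPrim m g Q₂) (z w : ℍ) :
    Q₁ z - Q₂ z = Q₁ w - Q₂ w := by
  apply poly_eq_of_eval_eq_on_upperHalfPlane
  intro x
  have h : ∀ τ : ℍ, HasDerivAt
      (fun z : ℂ => (Q₁ (ofComplex z)).eval (x : ℂ) - (Q₂ (ofComplex z)).eval (x : ℂ)) 0 (τ : ℂ) := by
    intro τ
    simpa using (h₁.2 x τ).fun_sub (h₂.2 x τ)
  have := eq_of_hasDerivAt_zero h z w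
  simpa [ofComplex_apply] using this

/-- Uniqueness of Eichler primitives decaying along vertical lines. -/
theorem IsEichlerPrim.eq_of_vertDecay {m : ℕ} {g : ℍ → ℂ} {Q₁ Q₂ : ℍ → ℂ[X]}
    (h₁ : IsEichlerPrim m g Q₁) (h₂ : IsEichlerPrim m g Q₂)
    (d₁ : VertDecay Q₁) (d₂ : VertDecay Q₂) : Q₁ = Q₂ := by
  funext z
  rw [← sub_eq_zero]
  apply poly_eq_of_eval_eq_on_upperHalfPlane
  intro x
  -- the difference is constant along the vertical line through `0` and tends to `0`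
  have hlim : Tendsto (fun t : ℝ => (Q₁ (ofComplex ((0 : ℝ) + t * Complex.I)) -
      Q₂ (ofComplex (((0 : ℝ) : ℂ) + t * Complex.I))).eval (x : ℂ)) atTop (𝓝 0) := by
    have := (d₁ 0 x).sub (d₂ 0 x)
    simpa [eval_sub] using this
  have hconst : ∀ᶠ t : ℝ in atTop, (Q₁ (ofComplex (((0 : ℝ) : ℂ) + t * Complex.I)) -
      Q₂ (ofComplex (((0 : ℝ) : ℂ) + t * Complex.I))).eval (x : ℂ) = (Q₁ z - Q₂ z).eval (x : ℂ) := by
    filter_upwards [eventually_gt_atTop 0] with t ht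
    have him : 0 < ((((0 : ℝ) : ℂ)) + t * Complex.I).im := by simpa using ht
    rw [ofComplex_apply_of_im_pos him, h₁.sub_const h₂ ⟨_, him⟩ z]
  have := tendsto_nhds_unique (hlim.congr' hconst) tendsto_const_nhds
  simpa using this.symm

/-! ### Transformation under `GL₂⁺` -/

theorem slash_apply_of_det_pos (k : ℤ) (g : ℍ → ℂ) {α : GL (Fin 2) ℝ} (hα : 0 < α.det.val) (τ : ℍ) :
    (g ∣[k] α) τ = g (α • τ) * ((α.det.val : ℝ) : ℂ) ^ (k - 1) * denom α τ ^ (-k) := by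
  rw [ModularForm.slash_apply, UpperHalfPlane.σ, if_pos hα, abs_of_pos hα]
  rfl

theorem IsEichlerPrim.transform {m : ℕ} {g : ℍ → ℂ} {Q : ℍ → ℂ[X]} (h : IsEichlerPrim m g Q)
    {α : GL (Fin 2) ℝ} (hα : 0 < α.det.val) :
    IsEichlerPrim m (g ∣[(m : ℤ) + 2] α) (fun z => polyAct m α (Q (α • z))) := by
  refine ⟨fun z => natDegree_polyAct_le m α _, fun x τ => ?_⟩
  have hfun : (fun z : ℂ => (polyAct m α (Q (α • ofComplex z))).eval (x : ℂ)) =
      fun z : ℂ => denom α x ^ m *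
        ((fun w : ℂ => (Q (ofComplex w)).eval ((α • x : ℍ) : ℂ)) ∘
          (fun z : ℂ => ((α • ofComplex z : ℍ) : ℂ))) z := by
    funext z
    rw [eval_polyAct_coe hα (h.1 _)]
    simp [ofComplex_apply]
  rw [hfun]
  have h1 := h.2 (α • x) (α • τ)
  have h2 := hasDerivAt_smul_ofComplex hα τ
  have h1' : HasDerivAt (fun w : ℂ => (Q (ofComplex w)).eval ((α • x : ℍ) : ℂ))
      (g (α • τ) * (((α • x : ℍ) : ℂ) - ((α • τ : ℍ) : ℂ)) ^ m)
      ((fun z : ℂ => ((α • ofComplex z : ℍ) : ℂ)) (τ : ℂ)) := by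
    simpa [ofComplex_apply] using h1
  have h3 := (h1'.comp (τ : ℂ) h2).const_mul (denom α x ^ m)
  refine h3.congr_deriv ?_
  rw [slash_apply_of_det_pos _ _ hα, coe_smul_sub_coe_smul hα]
  have hx := denom_ne_zero α x
  have hτ := denom_ne_zero α τ
  have hd : ((α.det.val : ℝ) : ℂ) ≠ 0 := by
    exact_mod_cast hα.ne'
  have e1 : ((m : ℤ) + 2 - 1) = ((m + 1 : ℕ) : ℤ) := by push_cast; ring
  have e2 : (-((m : ℤ) + 2)) = -((m + 2 : ℕ) : ℤ) := by push_cast; ring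
  rw [e1, e2, zpow_natCast, zpow_neg, zpow_natCast, div_pow, mul_pow, mul_pow, pow_succ, pow_add]
  field_simp
  ring


end Fermat.Agent.TeamB
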