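import Mathlib
import Fermat.Agent.TeamB.EichlerPoly

set_option autoImplicit false

open Polynomial UpperHalfPlane Filter Topology Asymptotics
open scoped MatrixGroups ModularForm Manifold

namespace Fermat.Agent.TeamB

/-- The vertical ray `t ↦ r + t i` tends to `i∞`. -/
theorem tendsto_vertical_atImInfty (r : ℝ) :
    Tendsto (fun t : ℝ => ofComplex ((r : ℂ) + t * Complex.I)) atTop atImInfty := by
  refine tendsto_comap_im_ofComplex.comp ?_
  rw [tendsto_comap_iff]
  have : (Complex.im ∘ fun t : ℝ => (r : ℂ) + t * Complex.I) = id := by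
    funext t; simp
  rw [this]
  exact tendsto_id

theorem coe_ofComplex_vertical (r : ℝ) {t : ℝ} (ht : 0 < t) :
    ((ofComplex ((r : ℂ) + t * Complex.I) : ℍ) : ℂ) = (r : ℂ) + t * Complex.I := by
  have him : 0 < ((r : ℂ) + t * Complex.I).im := by simpa using ht
  rw [ofComplex_apply_of_im_pos him]

/-- Polynomial growth times a cuspidal function decays along vertical lines. -/
theorem tendsto_pow_mul_vertical {G : ℍ → ℂ} {h : ℝ} (hh : 0 < h)
    (hper : Function.Periodic (G ∘ ofComplex) h) (hhol : MDiff G) (hzero : IsZeroAtImInfty G)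
    (j : ℕ) (r : ℝ) (x : ℂ) :
    Tendsto (fun t : ℝ => (x - ((r : ℂ) + t * Complex.I)) ^ j *
      G (ofComplex ((r : ℂ) + t * Complex.I))) atTop (𝓝 0) := by
  have hdecay := hzero.exp_decay_atImInfty hh hper hhol hzero.isBoundedAtImInfty
  have h1 : (fun t : ℝ => G (ofComplex ((r : ℂ) + t * Complex.I))) =O[atTop]
      fun t : ℝ => Real.exp (-(2 * Real.pi / h) * t) := by
    refine (hdecay.comp_tendsto (tendsto_vertical_atImInfty r)).congr' (EventuallyEq.refl _ _) ?_
    filter_upwards [eventually_gt_atTop 0] with t ht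
    have him : 0 < ((r : ℂ) + t * Complex.I).im := by simpa using ht
    simp only [Function.comp_apply]
    rw [ofComplex_apply_of_im_pos him]
    congr 1
    simp [UpperHalfPlane.im]
    ring
  have h2 : (fun t : ℝ => (x - ((r : ℂ) + t * Complex.I)) ^ j) =O[atTop] fun t : ℝ => t ^ j := by
    have hlin : (fun t : ℝ => x - ((r : ℂ) + t * Complex.I)) =O[atTop] fun t : ℝ => t := by
      refine IsBigO.of_bound (‖x - r‖ + 1) ?_
      filter_upwards [eventually_ge_atTop 1] with t ht
      have ht0 : 0 ≤ t := by linarith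
      calc ‖x - ((r : ℂ) + t * Complex.I)‖ = ‖(x - r) - t * Complex.I‖ := by ring_nf
        _ ≤ ‖x - r‖ + ‖(t : ℂ) * Complex.I‖ := norm_sub_le _ _
        _ = ‖x - r‖ + t := by simp [abs_of_nonneg ht0]
        _ ≤ ‖x - r‖ * t + t := by nlinarith [norm_nonneg (x - r)]
        _ = (‖x - r‖ + 1) * ‖t‖ := by rw [Real.norm_of_nonneg ht0]; ring
    exact hlin.pow j
  have h3 := h2.mul h1
  have hb : 0 < 2 * Real.pi / h := by positivity
  have h4 : Tendsto (fun t : ℝ => t ^ j * Real.exp (-(2 * Real.pi / h) * t)) atTop (𝓝 0) := by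
    have := tendsto_rpow_mul_exp_neg_mul_atTop_nhds_zero (j : ℝ) (2 * Real.pi / h) hb
    refine this.congr' ?_
    filter_upwards [eventually_gt_atTop 0] with t ht
    rw [Real.rpow_natCast]
  exact h3.trans_tendsto h4

theorem vertDecay_eichlerPoly (m : ℕ) (F : ℕ → ℍ → ℂ) {h : ℝ} (hh : 0 < h)
    (hper : ∀ i, Function.Periodic (F (i + 1) ∘ ofComplex) h) (hhol : ∀ i, MDiff (F (i + 1)))
    (hzero : ∀ i, IsZeroAtImInfty (F (i + 1))) : VertDecay (eichlerPoly m F) := by
  induction m generalizing F with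
  | zero =>
    intro r x
    simp only [eichlerPoly, eval_C]
    have := tendsto_pow_mul_vertical hh (hper 0) (hhol 0) (hzero 0) 0 r (x : ℂ)
    simpa using this
  | succ m ih =>
    intro r x
    have h1 := tendsto_pow_mul_vertical hh (hper 0) (hhol 0) (hzero 0) (m + 1) r (x : ℂ)
    have h2 := ih (fun i => F (i + 1)) (fun i => hper (i + 1)) (fun i => hhol (i + 1))
      (fun i => hzero (i + 1)) r x
    have h3 := h1.add (h2.const_mul ((m + 1 : ℕ) : ℂ))
    simp only [mul_zero, add_zero] at h3
    refine h3.congr' ?_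
    filter_upwards [eventually_gt_atTop 0] with t ht
    simp only [eichlerPoly, eval_add, eval_mul, eval_pow, eval_sub, eval_X, eval_C]
    rw [coe_ofComplex_vertical r ht]

theorem VertDecay.transform {m : ℕ} {Q : ℍ → ℂ[X]} (hQ : VertDecay Q)
    (hdeg : ∀ z, (Q z).natDegree ≤ m) {α : GL (Fin 2) ℝ} (hα : 0 < α.det.val)
    (hc : α 1 0 = 0) : VertDecay (fun z => polyAct m α (Q (α • z))) := by
  intro r x
  -- notation for the entries
  set a : ℝ := α 0 0 with ha
  set b : ℝ := α 0 1 with hb
  set d : ℝ := α 1 1 with hd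
  have hdet : a * d > 0 := by
    have := hα
    rw [Matrix.GeneralLinearGroup.val_det_apply, Matrix.det_fin_two, hc] at this
    simpa [ha, hd] using this
  have hd0 : d ≠ 0 := fun h0 => by simp [h0] at hdet
  have had : 0 < a / d := by
    have : a / d = a * d / (d * d) := by field_simp
    rw [this]
    exact div_pos hdet (mul_self_pos.mpr hd0)
  -- the transformed vertical line
  have hline : ∀ t : ℝ, 0 < t →
      (α • ofComplex ((r : ℂ) + t * Complex.I) : ℍ) =
        ofComplex ((((a * r + b) / d : ℝ) : ℂ) + ((a / d * t : ℝ) : ℂ) * Complex.I) := by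
    intro t ht
    have ht' : 0 < a / d * t := mul_pos had ht
    have him' : 0 < ((((a * r + b) / d : ℝ) : ℂ) + ((a / d * t : ℝ) : ℂ) * Complex.I).im := by
      simpa using ht'
    apply UpperHalfPlane.ext
    rw [coe_smul_of_det_pos hα, coe_ofComplex_vertical r ht, ofComplex_apply_of_im_pos him']
    simp only [num, denom, hc, ← ha, ← hb, ← hd]
    have hdc : (d : ℂ) ≠ 0 := by exact_mod_cast hd0
    push_cast
    rw [zero_mul, zero_add, div_mul_eq_mul_div, div_mul_eq_mul_div, ← add_div]
    congr 1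
    ring
  have hlim := (hQ ((a * r + b) / d) (α • x)).comp
    (tendsto_id.const_mul_atTop had : Tendsto (fun t : ℝ => a / d * t) atTop atTop)
  have hlim2 := hlim.const_mul (denom α x ^ m)
  rw [mul_zero] at hlim2
  refine hlim2.congr' ?_
  filter_upwards [eventually_gt_atTop 0] with t ht
  simp only [Function.comp_apply]
  rw [eval_polyAct_coe hα (hdeg _), hline t ht]

end Fermat.Agent.TeamB
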