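import Mathlib

set_option autoImplicit false

/-!
# Normalised primitives of periodic holomorphic functions vanishing at `i∞`

For `g : ℍ → ℂ` holomorphic, `h`-periodic and zero at `i∞`, we construct a holomorphic,
`h`-periodic primitive `G` which is again zero at `i∞`.
-/

namespace Fermat.Agent.TeamB

open Complex Filter Topology Metric Function
open UpperHalfPlane hiding I
open scoped Manifold

noncomputable section

/-- The primitive in the `q`-variable: a function `Ψ` on the unit disc with `Ψ 0 = 0` and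
`Ψ' q = dslope φ 0 q` where `φ` is the cusp function. -/
theorem exists_disc_primitive {φ : ℂ → ℂ} (hφ : DifferentiableOn ℂ φ (ball 0 1)) :
    ∃ Ψ : ℂ → ℂ, Ψ 0 = 0 ∧ ∀ q ∈ ball (0 : ℂ) 1, HasDerivAt Ψ (dslope φ 0 q) q := by
  have hψ : DifferentiableOn ℂ (dslope φ 0) (ball 0 1) :=
    (Complex.differentiableOn_dslope (ball_mem_nhds 0 one_pos)).mpr hφ
  exact (hψ.isExactOn_ball).with_val_at 0 0

theorem exists_normalized_primitive {g : ℍ → ℂ} {h : ℝ} (hh : 0 < h)
    (hper : Function.Periodic (g ∘ UpperHalfPlane.ofComplex) h) (hhol : MDiff g)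
    (hzero : UpperHalfPlane.IsZeroAtImInfty g) :
    ∃ G : ℍ → ℂ, Function.Periodic (G ∘ UpperHalfPlane.ofComplex) h ∧ MDiff G ∧
      UpperHalfPlane.IsZeroAtImInfty G ∧
      ∀ τ : ℍ, HasDerivAt (G ∘ UpperHalfPlane.ofComplex) (g τ) τ := by
  have hbdd : IsBoundedAtImInfty g := hzero.isBoundedAtImInfty
  set φ : ℂ → ℂ := cuspFunction h g with hφdef
  have hφ : DifferentiableOn ℂ φ (ball 0 1) :=
    differentiableOn_cuspFunction_ball hh hper hhol hbdd
  have hφ0 : φ 0 = 0 := hzero.cuspFunction_apply_zero hh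
  obtain ⟨Ψ, hΨ0, hΨ⟩ := exists_disc_primitive hφ
  -- the candidate primitive, as a function on `ℂ`
  set c : ℂ := (h : ℂ) / (2 * Real.pi * I) with hc
  have hpi : (2 * Real.pi * I : ℂ) ≠ 0 := by
    simp [Real.pi_ne_zero, I_ne_zero]
  have hhc : (h : ℂ) ≠ 0 := by exact_mod_cast hh.ne'
  set Gt : ℂ → ℂ := fun w => c * Ψ (Periodic.qParam h w) with hGt
  have hGt_per : Function.Periodic Gt h := by
    intro w
    simp only [hGt]
    congr 2
    simp only [Periodic.qParam]
    rw [show 2 * (Real.pi : ℂ) * I * (w + h) / h = 2 * Real.pi * I * w / h + 2 * Real.pi * I by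
      field_simp]
    rw [Complex.exp_add, Complex.exp_two_pi_mul_I, mul_one]
  have hball : ∀ w : ℂ, 0 < w.im → Periodic.qParam h w ∈ ball (0 : ℂ) 1 := fun w hw => by
    rw [mem_ball_zero_iff]
    exact Periodic.norm_qParam_lt_one hh hw
  have hGt_deriv : ∀ τ : ℍ, HasDerivAt Gt (g τ) τ := by
    intro τ
    have hq : Periodic.qParam h τ ∈ ball (0 : ℂ) 1 := hball τ τ.im_pos
    have hqne : Periodic.qParam h (τ : ℂ) ≠ 0 := Periodic.qParam_ne_zero _
    have h1 : HasDerivAt (Periodic.qParam h)
        (Periodic.qParam h τ * (2 * Real.pi * I / h)) (τ : ℂ) := by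
      unfold Periodic.qParam
      have : HasDerivAt (fun z : ℂ => 2 * Real.pi * I * z / h) (2 * Real.pi * I / h) (τ : ℂ) := by
        have := ((hasDerivAt_id (τ : ℂ)).const_mul (2 * Real.pi * I)).div_const (h : ℂ)
        simpa using this
      exact this.cexp
    have h2 := (hΨ _ hq).comp (τ : ℂ) h1
    have h3 := h2.const_mul c
    have hval : c * (dslope φ 0 (Periodic.qParam h τ) * (Periodic.qParam h τ * (2 * Real.pi * I / h)))
        = g τ := by
      rw [dslope_of_ne _ hqne, slope_def_field, hφ0, sub_zero, sub_zero, hφdef,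
        eq_cuspFunction τ hh.ne' hper, hc]
      field_simp
    rw [hval] at h3
    exact h3
  refine ⟨fun τ => Gt τ, ?_, ?_, ?_, ?_⟩
  · -- periodicity
    intro w
    by_cases hw : 0 < w.im
    · have hw' : 0 < (w + h).im := by simpa using hw
      simp only [comp_apply, ofComplex_apply_of_im_pos hw, ofComplex_apply_of_im_pos hw']
      exact hGt_per w
    · have hw1 : w.im ≤ 0 := not_lt.mp hw
      have hw' : (w + h).im ≤ 0 := by simpa using hw1
      simp only [comp_apply, ofComplex_apply_eq_of_im_nonpos hw' hw1]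
  · -- holomorphy
    rw [UpperHalfPlane.mdifferentiable_iff]
    intro z hz
    have hz' : 0 < z.im := hz
    have hd : DifferentiableAt ℂ Gt z := (hGt_deriv ⟨z, hz'⟩).differentiableAt
    refine (hd.congr_of_eventuallyEq ?_).differentiableWithinAt
    filter_upwards [isOpen_upperHalfPlaneSet.mem_nhds hz'] with x hx
    simp only [comp_apply, ofComplex_apply_of_im_pos hx]
  · -- zero at infinity
    have hcont : ContinuousAt Ψ 0 := (hΨ 0 (mem_ball_self one_pos)).continuousAt
    have ht : Tendsto (fun τ : ℍ => Ψ (Periodic.qParam h τ)) atImInfty (𝓝 (Ψ 0)) :=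
      hcont.tendsto.comp (qParam_tendsto_atImInfty hh)
    have := ht.const_mul c
    rw [hΨ0, mul_zero] at this
    exact this
  · intro τ
    refine (hGt_deriv τ).congr_of_eventuallyEq ?_
    filter_upwards [isOpen_upperHalfPlaneSet.mem_nhds τ.im_pos] with x hx
    simp only [comp_apply, ofComplex_apply_of_im_pos hx]

end

end Fermat.Agent.TeamB
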