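import Mathlib
import Fermat.Agent.TeamB.EichlerPoly
import Fermat.Agent.TeamB.Primitive
import Fermat.Agent.TeamB.Decay

set_option autoImplicit false

open Polynomial UpperHalfPlane Filter Topology
open scoped MatrixGroups ModularForm Manifold

namespace Fermat.Agent.TeamB

/-- `g` is holomorphic on `ℍ`, `h`-periodic and vanishes at `i∞`. -/
structure IsCuspidal (h : ℝ) (g : ℍ → ℂ) : Prop where
  per : Function.Periodic (g ∘ ofComplex) h
  hol : MDiff g
  zero : IsZeroAtImInfty g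

theorem exists_primitive_chain {g : ℍ → ℂ} {h : ℝ} (hh : 0 < h) (hg : IsCuspidal h g) :
    ∃ F : ℕ → ℍ → ℂ, F 0 = g ∧ (∀ i, IsCuspidal h (F i)) ∧ ∀ i, HasDerivH (F (i + 1)) (F i) := by
  classical
  have hstep : ∀ G : {G : ℍ → ℂ // IsCuspidal h G}, ∃ G' : {G : ℍ → ℂ // IsCuspidal h G},
      HasDerivH G'.1 G.1 := by
    rintro ⟨G, hG⟩
    obtain ⟨G', h1, h2, h3, h4⟩ := exists_normalized_primitive hh hG.per hG.hol hG.zero
    exact ⟨⟨G', ⟨h1, h2, h3⟩⟩, h4⟩
  choose step hstep' using hstep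
  refine ⟨fun i => (step^[i] ⟨g, hg⟩).1, rfl, fun i => (step^[i] ⟨g, hg⟩).2, fun i => ?_⟩
  show HasDerivH (step^[i + 1] ⟨g, hg⟩).1 (step^[i] ⟨g, hg⟩).1
  rw [Function.iterate_succ_apply']
  exact hstep' _

/-- A chosen chain of normalised primitives of `g`. -/
noncomputable def primChain (h : ℝ) (g : ℍ → ℂ) : ℕ → ℍ → ℂ :=
  open scoped Classical in
  if H : 0 < h ∧ IsCuspidal h g then (exists_primitive_chain H.1 H.2).choose else fun _ => g

theorem primChain_zero {h : ℝ} {g : ℍ → ℂ} : primChain h g 0 = g := by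
  classical
  unfold primChain
  split_ifs with H
  · exact (exists_primitive_chain H.1 H.2).choose_spec.1
  · rfl

theorem primChain_cuspidal {h : ℝ} {g : ℍ → ℂ} (hh : 0 < h) (hg : IsCuspidal h g) (i : ℕ) :
    IsCuspidal h (primChain h g i) := by
  classical
  unfold primChain
  rw [dif_pos ⟨hh, hg⟩]
  exact (exists_primitive_chain hh hg).choose_spec.2.1 i

theorem primChain_hasDerivH {h : ℝ} {g : ℍ → ℂ} (hh : 0 < h) (hg : IsCuspidal h g) (i : ℕ) :
    HasDerivH (primChain h g (i + 1)) (primChain h g i) := by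
  classical
  unfold primChain
  rw [dif_pos ⟨hh, hg⟩]
  exact (exists_primitive_chain hh hg).choose_spec.2.2 i

/-- The Eichler polynomial `Q_g(z) ∈ ℂ[X]_{≤ m}` of a cuspidal function. -/
noncomputable def eichlerQ (m : ℕ) (h : ℝ) (g : ℍ → ℂ) : ℍ → ℂ[X] :=
  eichlerPoly m (primChain h g)

theorem natDegree_eichlerQ_le (m : ℕ) (h : ℝ) (g : ℍ → ℂ) (z : ℍ) :
    (eichlerQ m h g z).natDegree ≤ m :=
  natDegree_eichlerPoly_le m _ z

theorem isEichlerPrim_eichlerQ (m : ℕ) {h : ℝ} {g : ℍ → ℂ} (hh : 0 < h) (hg : IsCuspidal h g) :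
    IsEichlerPrim m g (eichlerQ m h g) := by
  have := isEichlerPrim_eichlerPoly m (primChain h g) (primChain_hasDerivH hh hg)
  rwa [primChain_zero] at this

theorem vertDecay_eichlerQ (m : ℕ) {h : ℝ} {g : ℍ → ℂ} (hh : 0 < h) (hg : IsCuspidal h g) :
    VertDecay (eichlerQ m h g) :=
  vertDecay_eichlerPoly m _ hh (fun i => (primChain_cuspidal hh hg (i + 1)).per)
    (fun i => (primChain_cuspidal hh hg (i + 1)).hol)
    (fun i => (primChain_cuspidal hh hg (i + 1)).zero)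

theorem eval_eichlerQ_self (m : ℕ) (h : ℝ) (g : ℍ → ℂ) (z : ℍ) :
    (eichlerQ m h g z).eval (z : ℂ) = (m.factorial : ℂ) * primChain h g (m + 1) z :=
  eval_eichlerPoly_self m _ z

/-- The diagonal restriction `z ↦ Q_g(z)(z)` is again cuspidal. -/
theorem eichlerQ_diag_cuspidal (m : ℕ) {h : ℝ} {g : ℍ → ℂ} (hh : 0 < h) (hg : IsCuspidal h g) :
    IsCuspidal h (fun z => (eichlerQ m h g z).eval (z : ℂ)) := by
  have hc := primChain_cuspidal hh hg (m + 1)
  have hfun : (fun z : ℍ => (eichlerQ m h g z).eval (z : ℂ)) =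
      (m.factorial : ℂ) • primChain h g (m + 1) := by
    funext z
    simp [eval_eichlerQ_self]
  rw [hfun]
  refine ⟨?_, ?_, ?_⟩
  · intro w
    have := hc.per w
    simp only [Function.comp_apply, Pi.smul_apply] at this ⊢
    rw [this]
  · exact hc.hol.const_smul _
  · exact hc.zero.smul (m.factorial : ℂ)

theorem HasDerivH.eq_zero_of_eq_zero {F G : ℍ → ℂ} (h : HasDerivH F G) (hF : F = 0) : G = 0 := by
  funext τ
  have h1 := h τ
  have h2 : HasDerivAt (F ∘ ofComplex) 0 (τ : ℂ) := by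
    rw [hF]
    exact hasDerivAt_const _ _
  exact h1.unique h2

/-- If the diagonal restriction vanishes identically then `g = 0`. -/
theorem eq_zero_of_eichlerQ_diag_eq_zero (m : ℕ) {h : ℝ} {g : ℍ → ℂ} (hh : 0 < h)
    (hg : IsCuspidal h g) (hz : ∀ z : ℍ, (eichlerQ m h g z).eval (z : ℂ) = 0) : g = 0 := by
  have htop : primChain h g (m + 1) = 0 := by
    funext z
    have := hz z
    rw [eval_eichlerQ_self] at this
    have hm : (m.factorial : ℂ) ≠ 0 := by exact_mod_cast m.factorial_ne_zero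
    simpa [hm] using this
  have hall : ∀ i, i ≤ m + 1 → primChain h g (m + 1 - i) = 0 := by
    intro i
    induction i with
    | zero => intro _; simpa using htop
    | succ i ih =>
      intro hi
      have h1 := ih (by omega)
      have h2 := primChain_hasDerivH hh hg (m + 1 - (i + 1))
      have e : m + 1 - (i + 1) + 1 = m + 1 - i := by omega
      rw [e] at h2
      exact h2.eq_zero_of_eq_zero h1
  have := hall (m + 1) le_rfl
  simpa [primChain_zero] using this

/-! ### Linearity via uniqueness -/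

theorem IsEichlerPrim.add {m : ℕ} {g₁ g₂ : ℍ → ℂ} {Q₁ Q₂ : ℍ → ℂ[X]}
    (h₁ : IsEichlerPrim m g₁ Q₁) (h₂ : IsEichlerPrim m g₂ Q₂) :
    IsEichlerPrim m (g₁ + g₂) (fun z => Q₁ z + Q₂ z) := by
  refine ⟨fun z => (natDegree_add_le _ _).trans (max_le (h₁.1 z) (h₂.1 z)), fun x τ => ?_⟩
  have := (h₁.2 x τ).fun_add (h₂.2 x τ)
  simp only [eval_add, Pi.add_apply]
  refine this.congr_deriv ?_
  ring

theorem IsEichlerPrim.smul {m : ℕ} {g : ℍ → ℂ} {Q : ℍ → ℂ[X]} (h : IsEichlerPrim m g Q) (c : ℂ) :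
    IsEichlerPrim m (c • g) (fun z => c • Q z) := by
  refine ⟨fun z => (natDegree_smul_le c _).trans (h.1 z), fun x τ => ?_⟩
  have := (h.2 x τ).const_mul c
  simp only [eval_smul, Pi.smul_apply, smul_eq_mul]
  refine this.congr_deriv ?_
  ring

theorem IsEichlerPrim.sum {ι : Type*} {m : ℕ} (s : Finset ι) {g : ι → ℍ → ℂ} {Q : ι → ℍ → ℂ[X]}
    (h : ∀ i ∈ s, IsEichlerPrim m (g i) (Q i)) :
    IsEichlerPrim m (∑ i ∈ s, g i) (fun z => ∑ i ∈ s, Q i z) := by
  classical
  induction s using Finset.induction_on with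
  | empty =>
    refine ⟨fun z => by simp, fun x τ => ?_⟩
    simpa using hasDerivAt_const (τ : ℂ) (0 : ℂ)
  | insert i t hi IH =>
    have h1 := h i (Finset.mem_insert_self i t)
    have h2 := IH fun j hj => h j (Finset.mem_insert_of_mem hj)
    have := h1.add h2
    simpa [Finset.sum_insert hi] using this

theorem VertDecay.add {Q₁ Q₂ : ℍ → ℂ[X]} (h₁ : VertDecay Q₁) (h₂ : VertDecay Q₂) :
    VertDecay (fun z => Q₁ z + Q₂ z) := by
  intro r x
  simpa [eval_add] using (h₁ r x).add (h₂ r x)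

theorem VertDecay.smul {Q : ℍ → ℂ[X]} (h : VertDecay Q) (c : ℂ) :
    VertDecay (fun z => c • Q z) := by
  intro r x
  simpa [eval_smul] using (h r x).const_mul c

theorem VertDecay.sum {ι : Type*} (s : Finset ι) {Q : ι → ℍ → ℂ[X]}
    (h : ∀ i ∈ s, VertDecay (Q i)) : VertDecay (fun z => ∑ i ∈ s, Q i z) := by
  intro r x
  have := tendsto_finsetSum s fun i hi => h i hi r x
  simpa [eval_finsetSum] using this

theorem IsCuspidal.add {h : ℝ} {g₁ g₂ : ℍ → ℂ} (h₁ : IsCuspidal h g₁) (h₂ : IsCuspidal h g₂) :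
    IsCuspidal h (g₁ + g₂) := by
  refine ⟨?_, h₁.hol.add h₂.hol, h₁.zero.add h₂.zero⟩
  intro w
  have a := h₁.per w
  have b := h₂.per w
  simp only [Function.comp_apply, Pi.add_apply] at a b ⊢
  rw [a, b]

theorem IsCuspidal.smul {h : ℝ} {g : ℍ → ℂ} (hg : IsCuspidal h g) (c : ℂ) :
    IsCuspidal h (c • g) := by
  refine ⟨?_, hg.hol.const_smul c, hg.zero.smul c⟩
  intro w
  have a := hg.per w
  simp only [Function.comp_apply, Pi.smul_apply] at a ⊢
  rw [a]

theorem eichlerQ_add (m : ℕ) {h : ℝ} (hh : 0 < h) {g₁ g₂ : ℍ → ℂ} (h₁ : IsCuspidal h g₁)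
    (h₂ : IsCuspidal h g₂) (z : ℍ) :
    eichlerQ m h (g₁ + g₂) z = eichlerQ m h g₁ z + eichlerQ m h g₂ z := by
  have := IsEichlerPrim.eq_of_vertDecay (isEichlerPrim_eichlerQ m hh (h₁.add h₂))
    ((isEichlerPrim_eichlerQ m hh h₁).add (isEichlerPrim_eichlerQ m hh h₂))
    (vertDecay_eichlerQ m hh (h₁.add h₂))
    ((vertDecay_eichlerQ m hh h₁).add (vertDecay_eichlerQ m hh h₂))
  exact congrFun this z

theorem eichlerQ_smul (m : ℕ) {h : ℝ} (hh : 0 < h) {g : ℍ → ℂ} (hg : IsCuspidal h g) (c : ℂ)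
    (z : ℍ) : eichlerQ m h (c • g) z = c • eichlerQ m h g z := by
  have := IsEichlerPrim.eq_of_vertDecay (isEichlerPrim_eichlerQ m hh (hg.smul c))
    ((isEichlerPrim_eichlerQ m hh hg).smul c)
    (vertDecay_eichlerQ m hh (hg.smul c)) ((vertDecay_eichlerQ m hh hg).smul c)
  exact congrFun this z

end Fermat.Agent.TeamB
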