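import Mathlib
import Fermat.Prelude.Thm_CongruenceSubgroup_one_mem_strictPeriods_Gamma0
import Fermat.Agent.TeamB.EichlerQ

set_option autoImplicit false
set_option linter.unusedSectionVars false

open Polynomial UpperHalfPlane Filter Topology CongruenceSubgroup Matrix.SpecialLinearGroup
open scoped MatrixGroups ModularForm Manifold

namespace Fermat.Agent.TeamB

variable {N : ℕ} {m : ℕ}

theorem det_mapGL_pos (γ : SL(2, ℤ)) : 0 < (mapGL ℝ γ : GL (Fin 2) ℝ).det.val := by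
  simp

/-- A cusp form on `Γ₀(N)` is cuspidal of period `1`. -/
theorem isCuspidal_cuspForm [NeZero N] {k : ℤ} (f : CuspForm (Gamma0 N) k) :
    IsCuspidal 1 (⇑f) where
  per := SlashInvariantFormClass.periodic_comp_ofComplex f
    (CongruenceSubgroup.one_mem_strictPeriods_Gamma0 N)
  hol := CuspFormClass.holo f
  zero := CuspFormClass.zero_at_infty f

theorem slash_mapGL_eq [NeZero N] {k : ℤ} (f : CuspForm (Gamma0 N) k) (γ : Gamma0 N) :
    (⇑f) ∣[k] (mapGL ℝ (γ : SL(2, ℤ)) : GL (Fin 2) ℝ) = ⇑f :=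
  SlashInvariantFormClass.slash_action_eq f _ (Subgroup.mem_map_of_mem (mapGL ℝ) γ.2)

/-- The Eichler polynomial of a cusp form of weight `m + 2`. -/
noncomputable def Qf (f : CuspForm (Gamma0 N) ((m : ℤ) + 2)) : ℍ → ℂ[X] :=
  eichlerQ m 1 (⇑f)

/-- The period polynomial of `f` at `γ`. -/
noncomputable def periodPoly (f : CuspForm (Gamma0 N) ((m : ℤ) + 2)) (γ : Gamma0 N) : ℂ[X] :=
  polyAct m (mapGL ℝ (γ : SL(2, ℤ))) (Qf f ((mapGL ℝ (γ : SL(2, ℤ)) : GL (Fin 2) ℝ) • I)) - Qf f I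

theorem natDegree_Qf_le (f : CuspForm (Gamma0 N) ((m : ℤ) + 2)) (z : ℍ) :
    (Qf f z).natDegree ≤ m := natDegree_eichlerQ_le m 1 _ z

variable [NeZero N]

theorem isEichlerPrim_Qf (f : CuspForm (Gamma0 N) ((m : ℤ) + 2)) : IsEichlerPrim m (⇑f) (Qf f) :=
  isEichlerPrim_eichlerQ m one_pos (isCuspidal_cuspForm f)

theorem vertDecay_Qf (f : CuspForm (Gamma0 N) ((m : ℤ) + 2)) : VertDecay (Qf f) :=
  vertDecay_eichlerQ m one_pos (isCuspidal_cuspForm f)

/-- The defining expression of `periodPoly` does not depend on the base point. -/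
theorem periodPoly_eq (f : CuspForm (Gamma0 N) ((m : ℤ) + 2)) (γ : Gamma0 N) (z : ℍ) :
    polyAct m (mapGL ℝ (γ : SL(2, ℤ)))
      (Qf f ((mapGL ℝ (γ : SL(2, ℤ)) : GL (Fin 2) ℝ) • z)) - Qf f z = periodPoly f γ := by
  have h1 := (isEichlerPrim_Qf f).transform (det_mapGL_pos (γ : SL(2, ℤ)))
  rw [slash_mapGL_eq f γ] at h1
  exact h1.sub_const (isEichlerPrim_Qf f) z I

theorem polyAct_Qf_smul (f : CuspForm (Gamma0 N) ((m : ℤ) + 2)) (γ : Gamma0 N) (z : ℍ) :
    polyAct m (mapGL ℝ (γ : SL(2, ℤ)))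
      (Qf f ((mapGL ℝ (γ : SL(2, ℤ)) : GL (Fin 2) ℝ) • z)) = periodPoly f γ + Qf f z := by
  rw [← periodPoly_eq f γ z]; ring

theorem natDegree_periodPoly_le (f : CuspForm (Gamma0 N) ((m : ℤ) + 2)) (γ : Gamma0 N) :
    (periodPoly f γ).natDegree ≤ m :=
  (natDegree_sub_le _ _).trans (max_le (natDegree_polyAct_le m _ _) (natDegree_Qf_le f I))

theorem periodPoly_one (f : CuspForm (Gamma0 N) ((m : ℤ) + 2)) : periodPoly f 1 = 0 := by
  unfold periodPoly
  simp only [OneMemClass.coe_one, map_one, one_smul]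
  rw [polyAct_one (natDegree_Qf_le f I), sub_self]

/-- The cocycle relation. -/
theorem periodPoly_mul (f : CuspForm (Gamma0 N) ((m : ℤ) + 2)) (γ δ : Gamma0 N) :
    periodPoly f (γ * δ) =
      polyAct m (mapGL ℝ (δ : SL(2, ℤ))) (periodPoly f γ) + periodPoly f δ := by
  have hγ := det_mapGL_pos (γ : SL(2, ℤ))
  have hδ := det_mapGL_pos (δ : SL(2, ℤ))
  rw [← periodPoly_eq f (γ * δ) I]
  simp only [Subgroup.coe_mul, map_mul]
  rw [polyAct_mul hγ hδ (natDegree_Qf_le f _), mul_smul, polyAct_Qf_smul f γ, polyAct_add,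
    polyAct_Qf_smul f δ]
  ring

theorem Qf_add (f g : CuspForm (Gamma0 N) ((m : ℤ) + 2)) (z : ℍ) :
    Qf (f + g) z = Qf f z + Qf g z := by
  unfold Qf
  rw [FunLike.coe_add]
  exact eichlerQ_add m one_pos (isCuspidal_cuspForm f) (isCuspidal_cuspForm g) z

theorem Qf_smul (c : ℂ) (f : CuspForm (Gamma0 N) ((m : ℤ) + 2)) (z : ℍ) :
    Qf (c • f) z = c • Qf f z := by
  unfold Qf
  rw [FunLike.coe_smul]
  exact eichlerQ_smul m one_pos (isCuspidal_cuspForm f) c z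

theorem periodPoly_add (f g : CuspForm (Gamma0 N) ((m : ℤ) + 2)) (γ : Gamma0 N) :
    periodPoly (f + g) γ = periodPoly f γ + periodPoly g γ := by
  unfold periodPoly
  rw [Qf_add, Qf_add, polyAct_add]
  ring

theorem periodPoly_smul (c : ℂ) (f : CuspForm (Gamma0 N) ((m : ℤ) + 2)) (γ : Gamma0 N) :
    periodPoly (c • f) γ = c • periodPoly f γ := by
  unfold periodPoly
  rw [Qf_smul, Qf_smul, polyAct_smul, smul_sub]

/-- The coefficient functionals. -/
noncomputable def periodCoeff (N m : ℕ) [NeZero N] (γ : Gamma0 N) (j : ℕ) :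
    Module.Dual ℂ (CuspForm (Gamma0 N) ((m : ℤ) + 2)) where
  toFun f := (periodPoly f γ).coeff j
  map_add' f g := by rw [periodPoly_add, coeff_add]
  map_smul' c f := by rw [periodPoly_smul, coeff_smul]; rfl

@[simp] theorem periodCoeff_apply (γ : Gamma0 N) (j : ℕ) (f : CuspForm (Gamma0 N) ((m : ℤ) + 2)) :
    periodCoeff N m γ j f = (periodPoly f γ).coeff j := rfl

/-- Abstract Hecke relation for the Eichler polynomial: if `f' = ∑ f ∣ αᵢ` with all `αᵢ` upper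
triangular of positive determinant, then `Q_{f'}(z) = ∑ polyAct αᵢ (Q_f(αᵢ z))`. -/
theorem Qf_of_sum_slash {ι : Type*} [Fintype ι] (α : ι → GL (Fin 2) ℝ)
    (hdet : ∀ i, 0 < (α i).det.val) (hup : ∀ i, (α i) 1 0 = 0)
    (f f' : CuspForm (Gamma0 N) ((m : ℤ) + 2))
    (hf' : (⇑f' : ℍ → ℂ) = ∑ i, (⇑f) ∣[(m : ℤ) + 2] (α i)) :
    Qf f' = fun z => ∑ i, polyAct m (α i) (Qf f (α i • z)) := by
  have h1 : IsEichlerPrim m (⇑f') (fun z => ∑ i, polyAct m (α i) (Qf f (α i • z))) := by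
    rw [hf']
    exact IsEichlerPrim.sum Finset.univ fun i _ => (isEichlerPrim_Qf f).transform (hdet i)
  have h2 : VertDecay (fun z => ∑ i, polyAct m (α i) (Qf f (α i • z))) :=
    VertDecay.sum Finset.univ fun i _ =>
      (vertDecay_Qf f).transform (natDegree_Qf_le f) (hdet i) (hup i)
  exact IsEichlerPrim.eq_of_vertDecay (isEichlerPrim_Qf f') h1 (vertDecay_Qf f') h2

/-- Abstract Hecke relation for period polynomials. -/
theorem periodPoly_of_sum_slash {ι : Type*} [Fintype ι] (α : ι → GL (Fin 2) ℝ)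
    (hdet : ∀ i, 0 < (α i).det.val) (hup : ∀ i, (α i) 1 0 = 0)
    (f f' : CuspForm (Gamma0 N) ((m : ℤ) + 2))
    (hf' : (⇑f' : ℍ → ℂ) = ∑ i, (⇑f) ∣[(m : ℤ) + 2] (α i))
    (γ : Gamma0 N) (σ : Equiv.Perm ι) (γ' : ι → Gamma0 N)
    (hdec : ∀ i, α i * mapGL ℝ (γ : SL(2, ℤ)) = mapGL ℝ (γ' i : SL(2, ℤ)) * α (σ i)) :
    periodPoly f' γ = ∑ i, polyAct m (α (σ i)) (periodPoly f (γ' i)) := by
  have hQ := Qf_of_sum_slash α hdet hup f f' hf'
  have hγ := det_mapGL_pos (γ : SL(2, ℤ))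
  rw [← periodPoly_eq f' γ I, hQ]
  simp only
  rw [polyAct_sum]
  have key : ∀ i, polyAct m (mapGL ℝ (γ : SL(2, ℤ)))
      (polyAct m (α i) (Qf f (α i • (mapGL ℝ (γ : SL(2, ℤ)) : GL (Fin 2) ℝ) • I))) =
      polyAct m (α (σ i)) (periodPoly f (γ' i)) +
        polyAct m (α (σ i)) (Qf f (α (σ i) • I)) := by
    intro i
    rw [← polyAct_mul (hdet i) hγ (natDegree_Qf_le f _), ← mul_smul, hdec i,
      polyAct_mul (det_mapGL_pos _) (hdet (σ i)) (natDegree_Qf_le f _), mul_smul,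
      polyAct_Qf_smul f (γ' i), polyAct_add]
  rw [Finset.sum_congr rfl fun i _ => key i, Finset.sum_add_distrib,
    Equiv.sum_comp σ (fun i => polyAct m (α i) (Qf f (α i • I)))]
  ring

end Fermat.Agent.TeamB
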