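import Mathlib
import Fermat.Prelude.Thm_Subgroup_IsArithmetic_exists_nat_mem_strictPeriods_conj
import Fermat.Agent.TeamB.PeriodPoly
import Fermat.Agent.TeamB.NegWeight

set_option autoImplicit false

open Polynomial UpperHalfPlane Filter Topology CongruenceSubgroup Matrix.SpecialLinearGroup
open scoped MatrixGroups ModularForm Manifold Pointwise

namespace Fermat.Agent.TeamB

variable {N m : ℕ}

/-- Slash of a diagonal restriction `z ↦ Q(z)(z)` by an element of `SL(2, ℤ)`, in weight `-m`. -/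
theorem slash_diag_eq (Q : ℍ → ℂ[X]) (hQ : ∀ z, (Q z).natDegree ≤ m) (δ : SL(2, ℤ)) (z : ℍ) :
    ((fun w : ℍ => (Q w).eval (w : ℂ)) ∣[-(m : ℤ)] (mapGL ℝ δ : GL (Fin 2) ℝ)) z =
      (polyAct m (mapGL ℝ δ) (Q ((mapGL ℝ δ : GL (Fin 2) ℝ) • z))).eval (z : ℂ) := by
  have hdet := det_mapGL_pos δ
  rw [slash_apply_of_det_pos _ _ hdet, eval_polyAct_coe hdet (hQ _)]
  have h1 : ((mapGL ℝ δ : GL (Fin 2) ℝ).det.val : ℝ) = 1 := by simp
  rw [h1]
  simp only [Complex.ofReal_one, one_zpow, mul_one, neg_neg, zpow_natCast]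
  ring

/-- Values of a periodic function on `ℍ`, in terms of points of `ℍ`. -/
theorem periodic_apply {F : ℍ → ℂ} {M : ℝ} (hF : Function.Periodic (F ∘ ofComplex) M) (z : ℍ)
    (w : ℍ) (hw : (w : ℂ) = (z : ℂ) + M) : F w = F z := by
  have h := hF (z : ℂ)
  simp only [Function.comp_apply] at h
  rw [← hw, ofComplex_apply, ofComplex_apply] at h
  exact h

variable [NeZero N]

/-- The translate `f ∣ δ` of a cusp form by `δ ∈ SL(2, ℤ)` is cuspidal of period `M`, for a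
suitable positive integer `M` independent of `δ`. -/
theorem exists_period_translates (k : ℤ) :
    ∃ M : ℕ, 0 < M ∧ ∀ (δ : SL(2, ℤ)),
      (M : ℝ) ∈ (ConjAct.toConjAct (mapGL ℝ δ : GL (Fin 2) ℝ)⁻¹ •
        (Gamma0 N : Subgroup (GL (Fin 2) ℝ))).strictPeriods := by
  obtain ⟨M, hM, h⟩ := Subgroup.IsArithmetic.exists_nat_mem_strictPeriods_conj
    (Gamma0 N : Subgroup (GL (Fin 2) ℝ))
  refine ⟨M, hM, fun δ => ?_⟩
  have := h δ⁻¹
  rwa [map_inv] at this

theorem isCuspidal_slash {k : ℤ} (f : CuspForm (Gamma0 N) k) (δ : SL(2, ℤ)) {M : ℝ} (hM : 0 < M)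
    (hper : M ∈ (ConjAct.toConjAct (mapGL ℝ δ : GL (Fin 2) ℝ)⁻¹ •
        (Gamma0 N : Subgroup (GL (Fin 2) ℝ))).strictPeriods) :
    IsCuspidal M ((⇑f) ∣[k] (mapGL ℝ δ : GL (Fin 2) ℝ)) where
  per := SlashInvariantFormClass.periodic_comp_ofComplex
    (SlashInvariantForm.translate f (mapGL ℝ δ : GL (Fin 2) ℝ)) hper
  hol := (CuspFormClass.holo f).slash k _
  zero := CuspFormClass.zero_at_infty_slash f δ

/-- Injectivity of the period polynomial map. -/
theorem eq_zero_of_forall_periodPoly_eq_zero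
    (f : CuspForm (CongruenceSubgroup.Gamma0 N) ((m : ℤ) + 2))
    (h : ∀ γ : CongruenceSubgroup.Gamma0 N, periodPoly f γ = 0) : f = 0 := by
  -- the diagonal restriction
  set G : ℍ → ℂ := fun z => (Qf f z).eval (z : ℂ) with hG
  have hGcusp : IsCuspidal 1 G := eichlerQ_diag_cuspidal m one_pos (isCuspidal_cuspForm f)
  have hslash : ∀ (δ : SL(2, ℤ)) (z : ℍ), (G ∣[-(m : ℤ)] (mapGL ℝ δ : GL (Fin 2) ℝ)) z =
      (polyAct m (mapGL ℝ δ) (Qf f ((mapGL ℝ δ : GL (Fin 2) ℝ) • z))).eval (z : ℂ) :=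
    fun δ z => slash_diag_eq (Qf f) (natDegree_Qf_le f) δ z
  -- invariance under `Γ₀(N)`
  have hinv : ∀ γ ∈ (Gamma0 N : Subgroup (GL (Fin 2) ℝ)), G ∣[-(m : ℤ)] γ = G := by
    rintro _ ⟨γ, hγ, rfl⟩
    funext z
    have h1 := polyAct_Qf_smul f ⟨γ, hγ⟩ z
    rw [h ⟨γ, hγ⟩, zero_add] at h1
    have h2 := hslash γ z
    rw [h1] at h2
    exact h2
  let Gsif : SlashInvariantForm (Gamma0 N : Subgroup (GL (Fin 2) ℝ)) (-(m : ℤ)) :=
    { toFun := G, slash_action_eq' := hinv }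
  -- boundedness of all translates
  obtain ⟨M, hM, hMper⟩ := exists_period_translates (N := N) ((m : ℤ) + 2)
  have hM' : (0 : ℝ) < (M : ℝ) := by exact_mod_cast hM
  have hbdd : ∀ δ : SL(2, ℤ), IsBoundedAtImInfty (G ∣[-(m : ℤ)] (mapGL ℝ δ : GL (Fin 2) ℝ)) := by
    intro δ
    set g : ℍ → ℂ := (⇑f) ∣[(m : ℤ) + 2] (mapGL ℝ δ : GL (Fin 2) ℝ) with hg
    have hgc : IsCuspidal (M : ℝ) g := isCuspidal_slash f δ hM' (hMper δ)
    have hQ1 : IsEichlerPrim m g
        (fun z => polyAct m (mapGL ℝ δ) (Qf f ((mapGL ℝ δ : GL (Fin 2) ℝ) • z))) :=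
      (isEichlerPrim_Qf f).transform (det_mapGL_pos δ)
    have hQ2 : IsEichlerPrim m g (eichlerQ m (M : ℝ) g) := isEichlerPrim_eichlerQ m hM' hgc
    set D : ℍ → ℂ := fun z => (eichlerQ m (M : ℝ) g z).eval (z : ℂ) with hD
    have hDc : IsCuspidal (M : ℝ) D := eichlerQ_diag_cuspidal m hM' hgc
    -- the constant polynomial
    set C : ℂ[X] := polyAct m (mapGL ℝ δ) (Qf f ((mapGL ℝ δ : GL (Fin 2) ℝ) • I)) -
      eichlerQ m (M : ℝ) g I with hC
    have hconst : ∀ z : ℍ, polyAct m (mapGL ℝ δ) (Qf f ((mapGL ℝ δ : GL (Fin 2) ℝ) • z)) =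
        eichlerQ m (M : ℝ) g z + C := by
      intro z
      have := hQ1.sub_const hQ2 z I
      rw [hC, ← this]
      ring
    have hGδ : ∀ z : ℍ, (G ∣[-(m : ℤ)] (mapGL ℝ δ : GL (Fin 2) ℝ)) z = D z + C.eval (z : ℂ) := by
      intro z
      rw [hslash δ z, hconst z, eval_add]
    -- periodicity of `G ∣ δ`
    have hGδper : Function.Periodic
        ((G ∣[-(m : ℤ)] (mapGL ℝ δ : GL (Fin 2) ℝ)) ∘ ofComplex) (M : ℝ) :=
      SlashInvariantFormClass.periodic_comp_ofComplex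
        (SlashInvariantForm.translate Gsif (mapGL ℝ δ : GL (Fin 2) ℝ)) (hMper δ)
    -- hence `C` is periodic, hence constant
    have hCper : ∀ z : ℍ, C.eval ((z : ℂ) + M) = C.eval (z : ℂ) := by
      intro z
      have him : 0 < ((z : ℂ) + (M : ℂ)).im := by simpa using z.im_pos
      set w : ℍ := ⟨(z : ℂ) + (M : ℂ), him⟩ with hw
      have hwz : (w : ℂ) = (z : ℂ) + ((M : ℝ) : ℂ) := by simp [hw]
      have e1 := periodic_apply hGδper z w hwz
      have e2 := periodic_apply hDc.per z w hwz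
      rw [hGδ w, hGδ z, e2] at e1
      have e3 : C.eval (w : ℂ) = C.eval (z : ℂ) := add_left_cancel e1
      simpa [hw] using e3
    have hCdeg : C.natDegree = 0 := natDegree_eq_zero_of_periodic hM hCper
    obtain ⟨c, hc⟩ : ∃ c : ℂ, C = Polynomial.C c :=
      ⟨C.coeff 0, Polynomial.eq_C_of_natDegree_eq_zero hCdeg⟩
    have hfun : (G ∣[-(m : ℤ)] (mapGL ℝ δ : GL (Fin 2) ℝ)) = D + fun _ => c := by
      funext z
      rw [hGδ z, hc]
      simp
    rw [hfun]
    exact hDc.zero.isBoundedAtImInfty.add (Filter.const_boundedAtFilter _ c)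
  -- assemble the modular form of weight `-m`
  let GG : ModularForm (Gamma0 N : Subgroup (GL (Fin 2) ℝ)) (-(m : ℤ)) :=
    { toFun := G
      slash_action_eq' := hinv
      holo' := hGcusp.hol
      bdd_at_cusps' := fun {c} hc => by
        have hc' : IsCusp c 𝒮ℒ := (Subgroup.IsArithmetic.isCusp_iff_isCusp_SL2Z _).mp hc
        exact (OnePoint.isBoundedAt_iff_forall_SL2Z hc').mpr fun γ _ => hbdd γ }
  have hGG : GG = 0 := eq_zero_of_nonpos_weight N (by omega) GG hGcusp.zero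
  have hz : ∀ z : ℍ, (eichlerQ m 1 (⇑f) z).eval (z : ℂ) = 0 := by
    intro z
    have : GG z = 0 := by rw [hGG]; rfl
    exact this
  have hf0 : (⇑f : ℍ → ℂ) = 0 :=
    eq_zero_of_eichlerQ_diag_eq_zero m one_pos (isCuspidal_cuspForm f) hz
  ext z
  rw [hf0]
  rfl

end Fermat.Agent.TeamB
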