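import Mathlib

set_option autoImplicit false

namespace Fermat.Agent.TeamB

open Module

/-- Abstract finiteness criterion (dual-lattice form).  Let `V` be a complex vector space,
`G` a set of endomorphisms and `Λ` a finitely generated `ℤ`-submodule of the dual of `V` which
separates the points of `V` and is stable under precomposition with every element of `G`.
Then the `ℤ`-subalgebra of `End V` generated by `G` is a finitely generated `ℤ`-module. -/
theorem finite_adjoin_of_dual_lattice {V : Type*} [AddCommGroup V] [Module ℂ V]
    (G : Set (Module.End ℂ V)) (Λ : Submodule ℤ (Module.Dual ℂ V)) (hfg : Λ.FG)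
    (hsep : ∀ v : V, (∀ l ∈ Λ, l v = 0) → v = 0)
    (hstab : ∀ g ∈ G, ∀ l ∈ Λ, l ∘ₗ g ∈ Λ) :
    Module.Finite ℤ (Algebra.adjoin ℤ G) := by
  classical
  -- stability under the whole adjoin
  have hstab' : ∀ t ∈ Algebra.adjoin ℤ G, ∀ l ∈ Λ, l ∘ₗ t ∈ Λ := by
    intro t ht
    induction ht using Algebra.adjoin_induction with
    | mem g hg => exact hstab g hg
    | algebraMap n =>
      intro l hl
      have : l ∘ₗ (algebraMap ℤ (Module.End ℂ V) n) = n • l := by
        ext v
        simp
      rw [this]
      exact Λ.smul_mem n hl
    | add s t _ _ hs ht =>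
      intro l hl
      rw [LinearMap.comp_add]
      exact Λ.add_mem (hs l hl) (ht l hl)
    | mul s t _ _ hs ht =>
      intro l hl
      have : l ∘ₗ (s * t) = (l ∘ₗ s) ∘ₗ t := rfl
      rw [this]
      exact ht _ (hs l hl)
  -- `Λ` is a finite free `ℤ`-module
  have hΛfin : Module.Finite ℤ Λ := Module.Finite.iff_fg.mpr hfg
  have hΛfree : Module.Free ℤ Λ := inferInstance
  -- the `ℤ`-linear map `A → End_ℤ Λ`
  let Φ : (Algebra.adjoin ℤ G) →ₗ[ℤ] (Λ →ₗ[ℤ] Λ) :=
    { toFun := fun t =>
        { toFun := fun l => ⟨(l : Module.Dual ℂ V) ∘ₗ (t : Module.End ℂ V), hstab' t t.2 l l.2⟩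
          map_add' := fun l l' => by
            apply Subtype.ext
            simp [LinearMap.add_comp]
          map_smul' := fun n l => by
            apply Subtype.ext
            simp [LinearMap.smul_comp] }
      map_add' := fun s t => by
        apply LinearMap.ext
        intro l
        apply Subtype.ext
        simp [LinearMap.comp_add]
      map_smul' := fun n t => by
        apply LinearMap.ext
        intro l
        apply Subtype.ext
        apply LinearMap.ext
        intro v
        simp }
  have hΦ : Function.Injective Φ := by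
    rw [← LinearMap.ker_eq_bot, LinearMap.ker_eq_bot']
    intro t ht
    apply Subtype.ext
    apply LinearMap.ext
    intro v
    apply hsep
    intro l hl
    have h1 := congrArg (fun φ : Λ →ₗ[ℤ] Λ => ((φ ⟨l, hl⟩ : Λ) : Module.Dual ℂ V) v) ht
    simpa [Φ] using h1
  exact Module.Finite.of_injective Φ hΦ

end Fermat.Agent.TeamB
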