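import Mathlib

set_option autoImplicit false

namespace Fermat.Agent.TeamB

/-- (P4) The lattice spanned by the coefficient functionals of a "cocycle with integral
coefficient matrices" on a finitely generated group is finitely generated: it is spanned by the
functionals attached to a finite generating set. -/
theorem span_coeff_fg {G : Type*} [Group G] [Group.FG G] {V : Type*} [AddCommGroup V]
    [Module ℂ V] (m : ℕ) (c : G → ℕ → Module.Dual ℂ V) (M : G → ℕ → ℕ → ℤ)
    (h1 : ∀ j, c 1 j = 0)
    (hmul : ∀ γ δ j, j ≤ m →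
      c (γ * δ) j = ∑ i ∈ Finset.range (m + 1), M δ j i • c γ i + c δ j) :
    (Submodule.span ℤ {l | ∃ γ j, j ≤ m ∧ l = c γ j}).FG := by
  classical
  obtain ⟨S, hS⟩ := Group.fg_def.mp (inferInstance : Group.FG G)
  -- the finitely generated candidate
  let T : Finset (Module.Dual ℂ V) :=
    (S ×ˢ Finset.range (m + 1)).image fun x => c x.1 x.2
  have hT : ∀ g ∈ S, ∀ j, j ≤ m → c g j ∈ Submodule.span ℤ (T : Set (Module.Dual ℂ V)) := by
    intro g hg j hj
    apply Submodule.subset_span
    simp only [T, Finset.coe_image, Set.mem_image, Finset.mem_coe, Finset.mem_product,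
      Finset.mem_range]
    exact ⟨(g, j), ⟨hg, Nat.lt_succ_of_le hj⟩, rfl⟩
  have key : ∀ γ : G, ∀ j, j ≤ m → c γ j ∈ Submodule.span ℤ (T : Set (Module.Dual ℂ V)) := by
    intro γ
    have hγ : γ ∈ Subgroup.closure (S : Set G) := by rw [hS]; exact Subgroup.mem_top γ
    induction hγ using Subgroup.closure_induction with
    | mem g hg => exact hT g hg
    | one => intro j _; rw [h1 j]; exact Submodule.zero_mem _
    | mul x y _ _ hx hy =>
      intro j hj
      rw [hmul x y j hj]
      refine Submodule.add_mem _ (Submodule.sum_mem _ fun i hi => ?_) (hy j hj)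
      exact Submodule.smul_mem _ _ (hx i (Nat.lt_succ_iff.mp (Finset.mem_range.mp hi)))
    | inv x _ hx =>
      intro j hj
      have h := hmul x x⁻¹ j hj
      rw [mul_inv_cancel, h1 j] at h
      have h' : c x⁻¹ j = - ∑ i ∈ Finset.range (m + 1), M x⁻¹ j i • c x i := by
        rw [eq_neg_iff_add_eq_zero, add_comm]
        exact h.symm
      rw [h']
      refine Submodule.neg_mem _ (Submodule.sum_mem _ fun i hi => ?_)
      exact Submodule.smul_mem _ _ (hx i (Nat.lt_succ_iff.mp (Finset.mem_range.mp hi)))
  have heq : Submodule.span ℤ {l | ∃ γ j, j ≤ m ∧ l = c γ j} =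
      Submodule.span ℤ (T : Set (Module.Dual ℂ V)) := by
    apply le_antisymm
    · rw [Submodule.span_le]
      rintro l ⟨γ, j, hj, rfl⟩
      exact key γ j hj
    · apply Submodule.span_mono
      intro l hl
      simp only [T, Finset.coe_image, Set.mem_image, Finset.mem_coe, Finset.mem_product,
        Finset.mem_range] at hl
      obtain ⟨⟨g, j⟩, ⟨_, hj⟩, rfl⟩ := hl
      exact ⟨g, j, Nat.lt_succ_iff.mp hj, rfl⟩
  rw [heq]
  exact Submodule.fg_span (Finset.finite_toSet T)

end Fermat.Agent.TeamB
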