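import Mathlib
import Fermat.Agent.TeamB.Abstract
import Fermat.Agent.TeamB.LatticeFG

set_option autoImplicit false

open Polynomial

namespace Fermat.Agent.TeamB

/-- Abstract assembly for S22.  Data: a finitely generated group `Γ`, a complex vector space `V`,
"period polynomials" `P γ f ∈ ℂ[X]_{≤ m}` depending linearly on `f ∈ V`, such that

* `P 1 f = 0` and the coefficients of `P (γ δ) f` are those of `P δ f` plus an *integral* linear
  combination (depending only on `δ`) of the coefficients of `P γ f` (cocycle rule);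
* `f ↦ (P γ f)_γ` is injective;
* for every operator `T` in the set `G` and every `γ`, the coefficients of `P γ (T f)` are an
  integral linear combination of coefficients of finitely many `P γ' f` (Hecke relation).

Then the `ℤ`-algebra generated by `G` is a finitely generated `ℤ`-module. -/
theorem finite_adjoin_of_period_data
    {V : Type*} [AddCommGroup V] [Module ℂ V] {Γ : Type*} [Group Γ] [Group.FG Γ] (m : ℕ)
    (P : Γ → V →ₗ[ℂ] ℂ[X])
    (hdeg : ∀ γ f, (P γ f).natDegree ≤ m)
    (M : Γ → ℕ → ℕ → ℤ)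
    (h1 : ∀ f, P 1 f = 0)
    (hmul : ∀ γ δ f j, j ≤ m →
      (P (γ * δ) f).coeff j =
        ∑ i ∈ Finset.range (m + 1), (M δ j i : ℂ) * (P γ f).coeff i + (P δ f).coeff j)
    (hinj : ∀ f, (∀ γ, P γ f = 0) → f = 0)
    (G : Set (Module.End ℂ V))
    (hG : ∀ T ∈ G, ∀ γ : Γ, ∃ (ι : Type) (_ : Fintype ι) (γ' : ι → Γ) (A : ι → ℕ → ℕ → ℤ),
      ∀ f j, j ≤ m →
        (P γ (T f)).coeff j =
          ∑ x, ∑ i ∈ Finset.range (m + 1), (A x j i : ℂ) * (P (γ' x) f).coeff i) :
    Module.Finite ℤ (Algebra.adjoin ℤ G) := by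
  classical
  -- the coefficient functionals
  let c : Γ → ℕ → Module.Dual ℂ V := fun γ j => (Polynomial.lcoeff ℂ j).comp (P γ)
  have hc : ∀ γ j f, c γ j f = (P γ f).coeff j := fun γ j f => rfl
  let Λ : Submodule ℤ (Module.Dual ℂ V) := Submodule.span ℤ {l | ∃ γ j, j ≤ m ∧ l = c γ j}
  have hcmem : ∀ γ j, j ≤ m → c γ j ∈ Λ := fun γ j hj => Submodule.subset_span ⟨γ, j, hj, rfl⟩
  -- finite generation
  have hfg : Λ.FG := by
    refine span_coeff_fg m c M ?_ ?_
    · intro j
      apply LinearMap.ext
      intro f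
      rw [hc, h1 f]
      simp
    · intro γ δ j hj
      apply LinearMap.ext
      intro f
      rw [hc, hmul γ δ f j hj]
      simp only [LinearMap.add_apply, LinearMap.coe_sum, Finset.sum_apply, LinearMap.smul_apply, hc]
      congr 1
      refine Finset.sum_congr rfl fun i _ => ?_
      rw [zsmul_eq_mul]
  -- separation
  have hsep : ∀ v : V, (∀ l ∈ Λ, l v = 0) → v = 0 := by
    intro v hv
    apply hinj
    intro γ
    ext j
    rw [Polynomial.coeff_zero]
    by_cases hj : j ≤ m
    · rw [← hc]
      exact hv _ (hcmem γ j hj)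
    · exact Polynomial.coeff_eq_zero_of_natDegree_lt (lt_of_le_of_lt (hdeg γ v) (not_le.mp hj))
  -- stability
  have hstab : ∀ g ∈ G, ∀ l ∈ Λ, l ∘ₗ g ∈ Λ := by
    intro T hT l hl
    induction hl using Submodule.span_induction with
    | mem l hl =>
      obtain ⟨γ, j, hj, rfl⟩ := hl
      obtain ⟨ι, hι, γ', A, hA⟩ := hG T hT γ
      have : c γ j ∘ₗ T = ∑ x, ∑ i ∈ Finset.range (m + 1), A x j i • c (γ' x) i := by
        apply LinearMap.ext
        intro f
        rw [LinearMap.comp_apply, hc, hA f j hj]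
        simp only [LinearMap.coe_sum, Finset.sum_apply, LinearMap.smul_apply, hc, zsmul_eq_mul]
      rw [this]
      refine Submodule.sum_mem _ fun x _ => Submodule.sum_mem _ fun i hi => ?_
      exact Submodule.smul_mem _ _ (hcmem _ _ (Nat.lt_succ_iff.mp (Finset.mem_range.mp hi)))
    | zero => rw [LinearMap.zero_comp]; exact Submodule.zero_mem _
    | add l l' _ _ hl hl' => rw [LinearMap.add_comp]; exact Submodule.add_mem _ hl hl'
    | smul n l _ hl => rw [LinearMap.smul_comp]; exact Submodule.smul_mem _ _ hl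
  exact finite_adjoin_of_dual_lattice G Λ hfg hsep hstab

end Fermat.Agent.TeamB
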