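import Mathlib
import Fermat.Prelude.Def_ModularForm_HeckeOperator
import Fermat.Prelude.Sol.S_ModularForm_heckeT_slash_eq_self_of_mem_Gamma0

set_option autoImplicit false

open Matrix.SpecialLinearGroup UpperHalfPlane ModularForm
open scoped MatrixGroups ModularForm OnePoint

namespace Fermat.Agent.TeamB

open P2MW.S_ModularForm_heckeT_slash_eq_self_of_mem_Gamma0.ModularForm.HeckeSlashInvariance in
/-- The standard coset representatives for `T_p`, indexed by `ℙ¹(𝔽_p)`: `∞ ↦ [[p,0],[0,1]]`,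
`j ↦ [[1,j],[0,p]]`. (This is the prelude's `heckeRep`, re-exported.) -/
noncomputable def heckeRep (p : ℕ) (x : OnePoint (ZMod p)) : GL (Fin 2) ℝ :=
  P2MW.S_ModularForm_heckeT_slash_eq_self_of_mem_Gamma0.ModularForm.HeckeSlashInvariance.heckeRep p x

@[simp] theorem heckeRep_infty (p : ℕ) : heckeRep p ∞ = heckeDiagMatrix p := rfl

@[simp] theorem heckeRep_coe (p : ℕ) (j : ZMod p) : heckeRep p j = heckeMatrix p j.val := rfl

/-- (C4) `T_p` as a sum over `ℙ¹(𝔽_p)`. -/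
theorem heckeT_eq_sum_heckeRep {p : ℕ} [NeZero p] (k : ℤ) (f : ℍ → ℂ) :
    heckeT k p f = ∑ x : OnePoint (ZMod p), f ∣[k] heckeRep p x :=
  P2MW.S_ModularForm_heckeT_slash_eq_self_of_mem_Gamma0.ModularForm.HeckeSlashInvariance.heckeT_eq_sum_onePoint
    k f

/-- (C4) `U_q` as a sum over `ℤ/q`. -/
theorem heckeU_eq_sum_heckeMatrix {q : ℕ} [NeZero q] (k : ℤ) (f : ℍ → ℂ) :
    heckeU k q f = ∑ x : ZMod q, f ∣[k] heckeMatrix q x.val :=
  P2MW.S_ModularForm_heckeT_slash_eq_self_of_mem_Gamma0.ModularForm.HeckeSlashInvariance.heckeU_eq_sum_zmod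
    k f

/-- (C1) For `γ ∈ Γ₀(N)` and `p ∤ N` prime: `α_x γ = γ'_x α_{σ x}` with `σ` a permutation of
`ℙ¹(𝔽_p)` and `γ'_x ∈ Γ₀(N)`. -/
theorem exists_heckeT_decomp {N p : ℕ} [NeZero N] (hp : p.Prime) (hpN : ¬ p ∣ N)
    (γ : CongruenceSubgroup.Gamma0 N) :
    ∃ (σ : Equiv.Perm (OnePoint (ZMod p))) (γ' : OnePoint (ZMod p) → CongruenceSubgroup.Gamma0 N),
      ∀ x, heckeRep p x * mapGL ℝ (γ : SL(2, ℤ)) =
        mapGL ℝ (γ' x : SL(2, ℤ)) * heckeRep p (σ x) := by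
  have : Fact p.Prime := ⟨hp⟩
  have hcN : (N : ℤ) ∣ (γ : SL(2, ℤ)) 1 0 :=
    (ZMod.intCast_zmod_eq_zero_iff_dvd _ _).mp (CongruenceSubgroup.Gamma0_mem.mp γ.2)
  have H := fun x =>
    P2MW.S_ModularForm_heckeT_slash_eq_self_of_mem_Gamma0.ModularForm.HeckeSlashInvariance.heckeRep_mul
      (p := p) hpN (γ : SL(2, ℤ)) hcN x
  choose g' hg'N hg' using H
  refine ⟨MulAction.toPerm
      (P2MW.S_ModularForm_heckeT_slash_eq_self_of_mem_Gamma0.ModularForm.HeckeSlashInvariance.redMatrix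
        p (γ : SL(2, ℤ))),
    fun x => ⟨g' x, CongruenceSubgroup.Gamma0_mem.mpr
      ((ZMod.intCast_zmod_eq_zero_iff_dvd _ _).mpr (hg'N x))⟩, fun x => ?_⟩
  exact hg' x

/-- (C2) For `γ ∈ Γ₀(N)` and `q ∣ N`: `β_x γ = γ'_x β_{σ x}` with `σ` a permutation of `ℤ/q`,
`β_x = [[1,x],[0,q]]` and `γ'_x ∈ Γ₀(N)`. -/
theorem exists_heckeU_decomp {N q : ℕ} [NeZero N] (hqN : q ∣ N)
    (γ : CongruenceSubgroup.Gamma0 N) :
    ∃ (σ : Equiv.Perm (ZMod q)) (γ' : ZMod q → CongruenceSubgroup.Gamma0 N),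
      ∀ x : ZMod q, heckeMatrix q x.val * mapGL ℝ (γ : SL(2, ℤ)) =
        mapGL ℝ (γ' x : SL(2, ℤ)) * heckeMatrix q (σ x).val := by
  have : NeZero q := ⟨fun h => NeZero.ne N (by rw [h] at hqN; exact Nat.eq_zero_of_zero_dvd hqN)⟩
  have hcN : (N : ℤ) ∣ (γ : SL(2, ℤ)) 1 0 :=
    (ZMod.intCast_zmod_eq_zero_iff_dvd _ _).mp (CongruenceSubgroup.Gamma0_mem.mp γ.2)
  have hc : (q : ℤ) ∣ (γ : SL(2, ℤ)) 1 0 := (Int.natCast_dvd_natCast.mpr hqN).trans hcN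
  have H := fun x =>
    P2MW.S_ModularForm_heckeT_slash_eq_self_of_mem_Gamma0.ModularForm.HeckeSlashInvariance.heckeMatrix_mul_of_dvd
      (p := q) (γ : SL(2, ℤ)) hc x
  choose g' hg'c hg' using H
  refine ⟨P2MW.S_ModularForm_heckeT_slash_eq_self_of_mem_Gamma0.ModularForm.HeckeSlashInvariance.affinePerm
      (γ : SL(2, ℤ)) ((ZMod.intCast_zmod_eq_zero_iff_dvd _ _).mpr hc),
    fun x => ⟨g' x, ?_⟩, fun x => hg' x⟩
  rw [CongruenceSubgroup.Gamma0_mem, hg'c x]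
  push_cast
  rw [CongruenceSubgroup.Gamma0_mem.mp γ.2, mul_zero]

/-- (C3) Basic facts on the matrices `[[1,j],[0,p]]`. -/
theorem heckeMatrix_facts {p : ℕ} (hp : p ≠ 0) (j : ℕ) :
    0 < (heckeMatrix p j).det.val ∧ (heckeMatrix p j) 1 0 = 0 ∧
      ∀ i i', ∃ n : ℤ, (heckeMatrix p j) i i' = (n : ℝ) := by
  refine ⟨det_heckeMatrix_pos p j, ?_, ?_⟩
  · simp [val_heckeMatrix hp]
  · intro i i'
    fin_cases i <;> fin_cases i'
    · exact ⟨1, by simp [val_heckeMatrix hp]⟩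
    · exact ⟨j, by simp [val_heckeMatrix hp]⟩
    · exact ⟨0, by simp [val_heckeMatrix hp]⟩
    · exact ⟨p, by simp [val_heckeMatrix hp]⟩

/-- (C3) Basic facts on the matrix `[[p,0],[0,1]]`. -/
theorem heckeDiagMatrix_facts {p : ℕ} (hp : p ≠ 0) :
    0 < (heckeDiagMatrix p).det.val ∧ (heckeDiagMatrix p) 1 0 = 0 ∧
      ∀ i i', ∃ n : ℤ, (heckeDiagMatrix p) i i' = (n : ℝ) := by
  refine ⟨det_heckeDiagMatrix_pos p, ?_, ?_⟩
  · simp [val_heckeDiagMatrix hp]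
  · intro i i'
    fin_cases i <;> fin_cases i'
    · exact ⟨p, by simp [val_heckeDiagMatrix hp]⟩
    · exact ⟨0, by simp [val_heckeDiagMatrix hp]⟩
    · exact ⟨0, by simp [val_heckeDiagMatrix hp]⟩
    · exact ⟨1, by simp [val_heckeDiagMatrix hp]⟩

/-- (C3) Basic facts on the representatives `heckeRep p x`. -/
theorem heckeRep_facts {p : ℕ} (hp : p ≠ 0) (x : OnePoint (ZMod p)) :
    0 < (heckeRep p x).det.val ∧ (heckeRep p x) 1 0 = 0 ∧
      ∀ i i', ∃ n : ℤ, (heckeRep p x) i i' = (n : ℝ) := by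
  induction x using OnePoint.rec with
  | infty => exact heckeDiagMatrix_facts hp
  | coe j => exact heckeMatrix_facts hp j.val

/-- (C3) Elements of `SL(2, ℤ)`, viewed in `GL(2, ℝ)`: positive determinant, integer entries. -/
theorem mapGL_facts (g : SL(2, ℤ)) :
    0 < (mapGL ℝ g : GL (Fin 2) ℝ).det.val ∧
      ∀ i i', ∃ n : ℤ, (mapGL ℝ g : GL (Fin 2) ℝ) i i' = (n : ℝ) := by
  refine ⟨by simp, fun i i' => ⟨g i i', by simp⟩⟩

end Fermat.Agent.TeamB
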