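import Mathlib
import Fermat.Prelude.Thm_ModularForm_sturm_bound_Gamma0
import Fermat.Prelude.Thm_CongruenceSubgroup_one_mem_strictPeriods_Gamma0

set_option autoImplicit false

open UpperHalfPlane ModularFormClass
open scoped MatrixGroups

namespace Fermat.Agent.TeamB

/-- The modular form underlying a cusp form. -/
def cuspToModular {Γ : Subgroup (GL (Fin 2) ℝ)} {k : ℤ} (f : CuspForm Γ k) : ModularForm Γ k where
  toSlashInvariantForm := f.toSlashInvariantForm
  holo' := f.holo'
  bdd_at_cusps' := fun hc g hg => (f.zero_at_cusps' hc g hg).boundedAtFilter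

theorem cuspToModular_coe {Γ : Subgroup (GL (Fin 2) ℝ)} {k : ℤ} (f : CuspForm Γ k) :
    (cuspToModular f : ℍ → ℂ) = (f : ℍ → ℂ) := rfl

/-- A weight-`k` cusp form on `Γ₀(N)` vanishes as soon as the Sturm bound is `0`. -/
theorem cuspForm_eq_zero_of_sturm_zero (N : ℕ) [NeZero N] {k : ℤ}
    (h0 : (k * (CongruenceSubgroup.Gamma0 N).index).toNat / 12 = 0)
    (f : CuspForm (CongruenceSubgroup.Gamma0 N) k) : f = 0 := by
  have hmf : cuspToModular f = 0 := by
    apply ModularForm.sturm_bound_Gamma0 N (cuspToModular f)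
    intro n hn
    rw [h0] at hn
    have hn0 : n = 0 := Nat.le_zero.mp hn
    subst hn0
    rw [cuspToModular_coe]
    exact CuspFormClass.qExpansion_coeff_zero f one_pos
      (CongruenceSubgroup.one_mem_strictPeriods_Gamma0 N)
  ext z
  have h1 : (cuspToModular f : ℍ → ℂ) z = 0 := by rw [hmf]; rfl
  rw [cuspToModular_coe] at h1
  exact h1

theorem neg_one_mem_Gamma0 (N : ℕ) : (-1 : SL(2, ℤ)) ∈ CongruenceSubgroup.Gamma0 N := by
  rw [CongruenceSubgroup.Gamma0_mem]
  simp

/-- Cusp forms of weight `≤ 1` on `Γ₀(N)` vanish: for `k ≤ 0` by the Sturm bound, for `k = 1`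
because `-1 ∈ Γ₀(N)`. -/
theorem cuspForm_eq_zero_of_weight_le_one (N : ℕ) [NeZero N] {k : ℤ} (hk : k ≤ 1)
    (f : CuspForm (CongruenceSubgroup.Gamma0 N) k) : f = 0 := by
  rcases lt_or_eq_of_le hk with hlt | rfl
  · -- `k ≤ 0`
    apply cuspForm_eq_zero_of_sturm_zero N
    have hk0 : k ≤ 0 := by omega
    have : k * ((CongruenceSubgroup.Gamma0 N).index : ℤ) ≤ 0 :=
      mul_nonpos_of_nonpos_of_nonneg hk0 (by positivity)
    rw [Int.toNat_of_nonpos this]
  · -- `k = 1`
    ext z
    have h := SlashInvariantForm.slash_action_eqn_SL'' f (neg_one_mem_Gamma0 N) z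
    have hsmul : (-1 : SL(2, ℤ)) • z = z := by
      simp
    have hden : denom ((-1 : SL(2, ℤ)) : GL (Fin 2) ℝ) z = -1 := by
      simp [denom]
    rw [hsmul, hden] at h
    have h2 : f z = - f z := by simpa using h
    have h3 : (2 : ℂ) * f z = 0 := by linear_combination h2
    have := mul_eq_zero.mp h3
    simpa using this

/-- `Γ₀(N)` is finitely generated for `N ≠ 0` (Schreier's lemma, as `SL(2, ℤ) = ⟨S, T⟩`). -/
instance instFGSL2Z : Group.FG SL(2, ℤ) := by
  rw [Group.fg_iff]
  exact ⟨{ModularGroup.S, ModularGroup.T}, SpecialLinearGroup.SL2Z_generators,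
    by simp⟩

theorem fg_Gamma0 (N : ℕ) [NeZero N] : Group.FG (CongruenceSubgroup.Gamma0 N) :=
  Subgroup.fg_of_index_ne_zero (H := CongruenceSubgroup.Gamma0 N)

end Fermat.Agent.TeamB
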