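import Mathlib
import Fermat.Prelude.Def_CuspForm_HeckeAlgebra
import Fermat.Agent.TeamB.Assembly
import Fermat.Agent.TeamB.Cosets
import Fermat.Agent.TeamB.LowWeight
import Fermat.Agent.TeamB.PeriodPoly
import Fermat.Agent.TeamB.Injective

set_option autoImplicit false

open Polynomial UpperHalfPlane CongruenceSubgroup Matrix.SpecialLinearGroup ModularForm
open scoped MatrixGroups ModularForm OnePoint

namespace Fermat.Agent.TeamB

variable {N : ℕ} [NeZero N] {m : ℕ}

/-- `periodPoly · γ` as a linear map. -/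
noncomputable def periodPolyLin (N m : ℕ) [NeZero N] (γ : Gamma0 N) :
    CuspForm (Gamma0 N) ((m : ℤ) + 2) →ₗ[ℂ] ℂ[X] where
  toFun f := periodPoly f γ
  map_add' f g := periodPoly_add f g γ
  map_smul' c f := periodPoly_smul c f γ

@[simp] theorem periodPolyLin_apply (γ : Gamma0 N) (f : CuspForm (Gamma0 N) ((m : ℤ) + 2)) :
    periodPolyLin N m γ f = periodPoly f γ := rfl

/-- The integer matrix of `polyAct m α` for `α` with integer entries. -/
noncomputable def polyActIntMatrix (m : ℕ) (α : GL (Fin 2) ℝ)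
    (hα : ∀ i j, ∃ n : ℤ, α i j = (n : ℝ)) : ℕ → ℕ → ℤ :=
  (polyAct_coeff_int (m := m) hα).choose

theorem polyActIntMatrix_spec (m : ℕ) (α : GL (Fin 2) ℝ)
    (hα : ∀ i j, ∃ n : ℤ, α i j = (n : ℝ)) (p : ℂ[X]) (i : ℕ) :
    (polyAct m α p).coeff i =
      ∑ j ∈ Finset.range (m + 1), (polyActIntMatrix m α hα i j : ℂ) * p.coeff j :=
  (polyAct_coeff_int (m := m) hα).choose_spec p i

/-- Hecke relation on coefficients, abstract form: if `T f = ∑ f ∣ α_x` with `α_x` integral upper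
triangular of positive determinant and `α_x γ = γ'_x α_{σ x}`. -/
theorem exists_coeff_relation_of_sum_slash {ι : Type} [Fintype ι] (α : ι → GL (Fin 2) ℝ)
    (hfacts : ∀ x, 0 < (α x).det.val ∧ (α x) 1 0 = 0 ∧ ∀ i i', ∃ n : ℤ, (α x) i i' = (n : ℝ))
    (T : Module.End ℂ (CuspForm (Gamma0 N) ((m : ℤ) + 2)))
    (hT : ∀ f, (⇑(T f) : ℍ → ℂ) = ∑ x, (⇑f) ∣[(m : ℤ) + 2] (α x))
    (γ : Gamma0 N)
    (hdec : ∃ (σ : Equiv.Perm ι) (γ' : ι → Gamma0 N),
      ∀ x, α x * mapGL ℝ (γ : SL(2, ℤ)) = mapGL ℝ (γ' x : SL(2, ℤ)) * α (σ x)) :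
    ∃ (ι' : Type) (_ : Fintype ι') (γ' : ι' → Gamma0 N) (A : ι' → ℕ → ℕ → ℤ),
      ∀ f j, j ≤ m →
        (periodPolyLin N m γ (T f)).coeff j =
          ∑ x, ∑ i ∈ Finset.range (m + 1), (A x j i : ℂ) * (periodPolyLin N m (γ' x) f).coeff i := by
  obtain ⟨σ, γ', hdec⟩ := hdec
  refine ⟨ι, inferInstance, γ',
    fun x => polyActIntMatrix m (α (σ x)) (hfacts (σ x)).2.2, fun f j _ => ?_⟩
  rw [periodPolyLin_apply,
    periodPoly_of_sum_slash α (fun x => (hfacts x).1) (fun x => (hfacts x).2.1) f (T f) (hT f) γ σ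
      γ' hdec,
    Polynomial.finsetSum_coeff]
  refine Finset.sum_congr rfl fun x _ => ?_
  rw [polyActIntMatrix_spec]
  rfl

/-- Main theorem of Team B: the Hecke algebra in weight `m + 2` is a finitely generated
`ℤ`-module. -/
theorem heckeAlgebra_finite_main (N : ℕ) [NeZero N] (m : ℕ) (S : Set ℕ) :
    Module.Finite ℤ (CuspForm.heckeAlgebra N ((m : ℤ) + 2) S) := by
  have : Group.FG (Gamma0 N) := fg_Gamma0 N
  refine finite_adjoin_of_period_data (Γ := Gamma0 N) m (periodPolyLin N m)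
    (fun γ f => natDegree_periodPoly_le f γ)
    (fun δ => polyActIntMatrix m (mapGL ℝ (δ : SL(2, ℤ))) (mapGL_facts (δ : SL(2, ℤ))).2)
    (fun f => periodPoly_one f) ?_ ?_ (CuspForm.heckeGenerators N ((m : ℤ) + 2) S) ?_
  · -- cocycle rule on coefficients
    intro γ δ f j _
    rw [periodPolyLin_apply, periodPoly_mul, Polynomial.coeff_add, polyActIntMatrix_spec]
    rfl
  · -- injectivity
    intro f hf
    exact eq_zero_of_forall_periodPoly_eq_zero f hf
  · -- Hecke relation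
    rintro T (⟨ℓ, hℓ, hℓN, -, rfl⟩ | ⟨q, hqN, hq, -, rfl⟩) γ
    · have : NeZero ℓ := ⟨hℓ.ne_zero⟩
      refine exists_coeff_relation_of_sum_slash (heckeRep ℓ) (heckeRep_facts hℓ.ne_zero) _ ?_ γ
        (exists_heckeT_decomp hℓ hℓN γ)
      intro f
      rw [CuspForm.coe_heckeTLin_apply, heckeT_eq_sum_heckeRep]
    · have : NeZero q := ⟨hq.ne_zero⟩
      refine exists_coeff_relation_of_sum_slash (fun x : ZMod q => heckeMatrix q x.val)
        (fun x => heckeMatrix_facts hq.ne_zero x.val) _ ?_ γ (exists_heckeU_decomp hqN γ)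
      intro f
      rw [CuspForm.coe_heckeULin_apply, heckeU_eq_sum_heckeMatrix]

end Fermat.Agent.TeamB
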