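import Mathlib
import Fermat.Prelude.Def_CuspForm_HeckeAlgebra
import Fermat.Agent.TeamB.LowWeight

set_option autoImplicit false

namespace Fermat.Agent.TeamB

/-- For weight `k ≤ 1` the space of cusp forms is trivial, hence so is the Hecke algebra. -/
theorem heckeAlgebra_finite_of_le_one (N : ℕ) [NeZero N] {k : ℤ} (hk : k ≤ 1) (S : Set ℕ) :
    Module.Finite ℤ (CuspForm.heckeAlgebra N k S) := by
  have : Subsingleton (CuspForm (CongruenceSubgroup.Gamma0 N) k) :=
    ⟨fun f g => by
      rw [cuspForm_eq_zero_of_weight_le_one N hk f, cuspForm_eq_zero_of_weight_le_one N hk g]⟩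
  have : Subsingleton (Module.End ℂ (CuspForm (CongruenceSubgroup.Gamma0 N) k)) :=
    ⟨fun s t => LinearMap.ext fun f => Subsingleton.elim _ _⟩
  have : Subsingleton (CuspForm.heckeAlgebra N k S) :=
    ⟨fun s t => Subtype.ext (Subsingleton.elim _ _)⟩
  infer_instance

/-- Reduction of S22 to the case of weight `m + 2`. -/
theorem heckeAlgebra_finite_of_main
    (main : ∀ (N : ℕ) [NeZero N] (m : ℕ) (S : Set ℕ),
      Module.Finite ℤ (CuspForm.heckeAlgebra N ((m : ℤ) + 2) S))
    (N : ℕ) [NeZero N] (k : ℤ) (S : Set ℕ) :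
    Module.Finite ℤ (CuspForm.heckeAlgebra N k S) := by
  rcases le_or_gt k 1 with hk | hk
  · exact heckeAlgebra_finite_of_le_one N hk S
  · obtain ⟨m, rfl⟩ : ∃ m : ℕ, k = (m : ℤ) + 2 := ⟨(k - 2).toNat, by omega⟩
    exact main N m S

end Fermat.Agent.TeamB
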